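import Fermat.Agent.Jac.Algebra
import Fermat.Agent.Jac.LB

/-!
# The chart rings and the lattices of a bundle

The overlap ring is the localisation of each chart ring at its coordinate, and a lattice of a bundle
is a localised module of the same kind.
-/

set_option autoImplicit false

universe u

noncomputable section

open TensorProduct

namespace Fermat.Agent.Jac

variable {k : Type u} [Field k] {D : CurveData k}
variable {R R' R'' : Type u} [CommRing R] [Algebra k R] [CommRing R'] [Algebra k R'] [CommRing R'']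
    [Algebra k R'']

namespace CurveData

theorem algebraMap_tR_mul :
    algebraMap (D.A R 0) (D.A01 R) (D.tR R 0) * algebraMap (D.A R 1) (D.A01 R) (D.tR R 1) = 1 := by
  have h : ∀ a b : D.B01, a * b = 1 →
      ((1 : R) ⊗ₜ[k] a) * ((1 : R) ⊗ₜ[k] b) = (1 : D.A01 R) := fun a b h => by
    rw [Algebra.TensorProduct.tmul_mul_tmul, h, one_mul, Algebra.TensorProduct.one_def]
  exact h _ _ D.res_t_mul

theorem algebraMap_tR_mul' {i j : Fin 2} (h : j ≠ i) :
    algebraMap (D.A R i) (D.A01 R) (D.tR R i) * algebraMap (D.A R j) (D.A01 R) (D.tR R j) = 1 := by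
  rcases (show i = 0 ∧ j = 1 ∨ i = 1 ∧ j = 0 by omega) with ⟨rfl, rfl⟩ | ⟨rfl, rfl⟩
  · exact algebraMap_tR_mul
  · exact (mul_comm _ _).trans algebraMap_tR_mul

/-- The coordinate is a unit on the overlap. -/
theorem isUnit_tR (i : Fin 2) : IsUnit (algebraMap (D.A R i) (D.A01 R) (D.tR R i)) := by
  rcases (show i = 0 ∨ i = 1 by omega) with rfl | rfl
  exacts [.of_mul_eq_one _ algebraMap_tR_mul, .of_mul_eq_one_right _ algebraMap_tR_mul]

/-- An overlap function times a power of the coordinate comes from the chart. -/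
theorem exists_pow_mul_eq (i : Fin 2) (a : D.A01 R) : ∃ (n : ℕ) (b : D.A R i),
    algebraMap (D.A R i) (D.A01 R) (D.tR R i) ^ n * a = algebraMap (D.A R i) (D.A01 R) b := by
  induction a using TensorProduct.induction_on with
  | zero => exact ⟨0, 0, by simp⟩
  | tmul r x =>
    obtain ⟨n, b, hb⟩ := IsLocalization.Away.surj (D.t i) x
    refine ⟨n, r ⊗ₜ b, ?_⟩
    rw [CurveData.tR, CurveData.algebraMap_A01_tmul, CurveData.algebraMap_A01_tmul,
      Algebra.TensorProduct.tmul_pow, one_pow, Algebra.TensorProduct.tmul_mul_tmul, one_mul]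
    congr 1
    rw [mul_comm]
    exact hb
  | add x y hx hy =>
    obtain ⟨n, b, hb⟩ := hx
    obtain ⟨m, c, hc⟩ := hy
    refine ⟨n + m, D.tR R i ^ m * b + D.tR R i ^ n * c, ?_⟩
    rw [map_add, map_mul, map_mul, map_pow, map_pow, ← hb, ← hc]
    ring

instance isLocalizationA01 (i : Fin 2) : IsLocalization.Away (D.tR R i) (D.A01 R) := by
  refine (isLocalization_iff _ _).mpr ⟨?_, fun z => ?_, fun {x y} h => ⟨1, ?_⟩⟩
  · rintro ⟨_, n, rfl⟩
    simpa using (isUnit_tR i).pow n
  · obtain ⟨n, b, hb⟩ := exists_pow_mul_eq i z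
    exact ⟨(b, ⟨_, n, rfl⟩), by rw [← hb, mul_comm, map_pow]⟩
  · rw [D.resR_injective R i h]

/-- The inverse of the coordinate in the overlap ring. -/
def tInv (D : CurveData k) (R : Type u) [CommRing R] [Algebra k R] (i : Fin 2) : D.A01 R :=
  ((isUnit_tR (D := D) (R := R) i).unit⁻¹ : (D.A01 R)ˣ)

theorem tInv_mul (i : Fin 2) : D.tInv R i * algebraMap (D.A R i) (D.A01 R) (D.tR R i) = 1 :=
  (isUnit_tR i).val_inv_mul

section Span

variable {T : Type u} [AddCommGroup T] [Module (D.A01 R) T] {i : Fin 2} [Module (D.A R i) T]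
  [IsScalarTower (D.A R i) (D.A01 R) T]

theorem mem_span_of_pow_smul_mem {S : Set T} {m : T} {n : ℕ} (h : D.tR R i ^ n • m ∈ S) :
    m ∈ Submodule.span (D.A01 R) S := by
  have := Submodule.smul_mem _ (D.tInv R i ^ n) (Submodule.subset_span (R := D.A01 R) h)
  rwa [← algebraMap_smul (D.A01 R) (D.tR R i ^ n) m, map_pow, smul_smul, ← mul_pow,
    CurveData.tInv_mul, one_pow, one_smul] at this

/-- A set reached by powers of the coordinate from every element spans over the overlap ring. -/
theorem span_eq_top_of_pow_smul_mem {S : Set T} (h : ∀ m, ∃ n : ℕ, D.tR R i ^ n • m ∈ S) :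
    Submodule.span (D.A01 R) S = ⊤ :=
  eq_top_iff.mpr fun m _ => mem_span_of_pow_smul_mem (h m).choose_spec

/-- Powers of the coordinate act bijectively on modules over the overlap ring. -/
theorem bijective_pow_smul (n : ℕ) : Function.Bijective fun m : T => D.tR R i ^ n • m := by
  refine ⟨fun x y h => ?_, fun y => ⟨D.tInv R i ^ n • y, ?_⟩⟩
  · change D.tR R i ^ n • x = D.tR R i ^ n • y at h
    rw [← algebraMap_smul (D.A01 R) (D.tR R i ^ n) x, ← algebraMap_smul (D.A01 R) (D.tR R i ^ n) y,
      map_pow] at h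
    exact ((CurveData.isUnit_tR i).pow n).smul_left_cancel.mp h
  · change D.tR R i ^ n • (D.tInv R i ^ n • y) = y
    rw [← algebraMap_smul (D.A01 R) (D.tR R i ^ n), map_pow, smul_smul, ← mul_pow, mul_comm,
      CurveData.tInv_mul, one_pow, one_smul]

/-- An element of the span over the overlap ring is moved into the submodule by a power. -/
theorem exists_pow_smul_mem_of_mem_span {S : Submodule (D.A R i) T} {m : T}
    (hm : m ∈ Submodule.span (D.A01 R) (S : Set T)) : ∃ n : ℕ, D.tR R i ^ n • m ∈ S := by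
  induction hm using Submodule.span_induction with
  | mem x hx => exact ⟨0, by simpa using hx⟩
  | zero => exact ⟨0, by simp⟩
  | add x y _ _ hx hy =>
    obtain ⟨n, hn⟩ := hx
    obtain ⟨l, hl⟩ := hy
    refine ⟨n + l, ?_⟩
    rw [smul_add]
    refine add_mem ?_ ?_
    · rw [add_comm, pow_add, mul_smul]; exact S.smul_mem _ hn
    · rw [pow_add, mul_smul]; exact S.smul_mem _ hl
  | smul a x _ hx =>
    obtain ⟨n, hn⟩ := hx
    obtain ⟨l, b, hb⟩ := exists_pow_mul_eq i a
    refine ⟨l + n, ?_⟩
    have h : D.tR R i ^ (l + n) • a • x = b • D.tR R i ^ n • x := by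
      rw [smul_smul b, mul_comm b, pow_add, mul_comm, mul_smul, mul_smul,
        ← algebraMap_smul (D.A01 R) (D.tR R i ^ l) (a • x), smul_smul, map_pow, hb, algebraMap_smul]
    exact h ▸ S.smul_mem b hn

end Span

variable (φ : R →ₐ[k] R')

@[simp]
theorem mapA_tmul (i : Fin 2) (r : R) (b : D.B i) : D.mapA φ i (r ⊗ₜ b) = φ r ⊗ₜ b := rfl

@[simp]
theorem mapA01_tmul (r : R) (b : D.B01) : D.mapA01 φ (r ⊗ₜ b) = φ r ⊗ₜ b := rfl

/-- Change of base commutes with restriction to the overlap. -/
theorem mapA01_res (i : Fin 2) (a : D.A R i) :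
    D.mapA01 φ (algebraMap (D.A R i) (D.A01 R) a) =
      algebraMap (D.A R' i) (D.A01 R') (D.mapA φ i a) := by
  induction a using TensorProduct.induction_on with
  | zero => simp
  | tmul r b => simp
  | add x y hx hy => simp [hx, hy]

theorem mapA_algebraMap (i : Fin 2) (r : R) :
    D.mapA φ i (algebraMap R (D.A R i) r) = algebraMap R' (D.A R' i) (φ r) := by
  simp [Algebra.TensorProduct.algebraMap_apply]

theorem mapA01_algebraMapBase (r : R) :
    D.mapA01 φ (algebraMap R (D.A01 R) r) = algebraMap R' (D.A01 R') (φ r) := by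
  simp [Algebra.TensorProduct.algebraMap_apply]

/-- Change of base preserves the coordinates. -/
@[simp]
theorem mapA_coord (i : Fin 2) : D.mapA φ i (D.tR R i) = D.tR R' i := by simp [CurveData.tR]

theorem mapA01_id (a : D.A01 R) : D.mapA01 (AlgHom.id k R) a = a := by
  induction a using TensorProduct.induction_on with
  | zero => simp
  | tmul r b => simp
  | add x y hx hy => simp [hx, hy]

theorem mapA01_comp (ψ : R' →ₐ[k] R'') (a : D.A01 R) :
    D.mapA01 (ψ.comp φ) a = D.mapA01 ψ (D.mapA01 φ a) := by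
  induction a using TensorProduct.induction_on with
  | zero => simp
  | tmul r b => simp
  | add x y hx hy => simp [hx, hy]

/-- Change of base commutes with evaluation at the rational point. -/
theorem evR_mapA (a : D.A R 0) : D.evR R' (D.mapA φ 0 a) = φ (D.evR R a) := by
  induction a using TensorProduct.induction_on with
  | zero => simp
  | tmul r b =>
    change φ r * algebraMap k R' (D.ev b) = φ (r * algebraMap k R (D.ev b))
    rw [map_mul, φ.commutes]
  | add x y hx hy => simp [hx, hy]

/-- An element of the chart ring over `R'` is a combination of elements coming from `R`. -/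
theorem mem_span_range_mapA (i : Fin 2) (a : D.A R' i) :
    a ∈ Submodule.span R' (Set.range (D.mapA φ i)) := by
  induction a using TensorProduct.induction_on with
  | zero => exact zero_mem _
  | tmul r b =>
    have h : r ⊗ₜ[k] b = r • D.mapA φ i (1 ⊗ₜ b) := by simp [smul_tmul']
    rw [h]
    exact Submodule.smul_mem _ r (Submodule.subset_span ⟨_, rfl⟩)
  | add x y hx hy => exact add_mem hx hy

end CurveData

/-- A dual basis of a finite projective module. -/
theorem exists_dual_basis (A : Type u) [CommRing A] (P : Type u) [AddCommGroup P] [Module A P]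
    [Module.Finite A P] [Module.Projective A P] :
    ∃ (n : ℕ) (φ : Fin n → P →ₗ[A] A) (y : Fin n → P), ∀ x, ∑ j, φ j x • y j = x := by
  obtain ⟨n, f, hf⟩ := Module.Finite.exists_fin' A P
  obtain ⟨g, hg⟩ := Module.projective_lifting_property f LinearMap.id hf
  refine ⟨n, fun j => LinearMap.proj j ∘ₗ g, fun j => f (Pi.single j 1), fun x => ?_⟩
  conv_rhs => rw [← LinearMap.id_apply (R := A) x, ← hg, LinearMap.comp_apply,
    pi_eq_sum_univ' (g x), map_sum]
  simp [map_smul]

/-- An invertible module has, near every prime, an element on which some functional is nonzero. -/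
theorem exists_local_functional (A : Type u) [CommRing A] (P : Type u) [AddCommGroup P] [Module A P]
    [Module.Invertible A P] (p : PrimeSpectrum A) :
    ∃ (φ : P →ₗ[A] A) (f : P), φ f ∉ p.asIdeal ∧ ∀ x, φ f • x = φ x • f := by
  obtain ⟨S, hS⟩ := ((Module.Invertible.linearEquiv A P).symm 1).exists_finset
  replace hS : 1 = ∑ i ∈ S, i.1 i.2 := by
    simpa [LinearEquiv.symm_apply_eq, Module.Invertible.linearEquiv] using hS
  obtain ⟨⟨φ, m⟩, -, hm⟩ : ∃ i ∈ S, i.1 i.2 ∉ p.asIdeal := by
    by_contra! hall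
    exact p.isPrime.ne_top ((Ideal.eq_top_iff_one _).mpr (hS ▸ Ideal.sum_mem _ hall))
  exact ⟨φ, m, hm, fun x =>
    congr(TensorProduct.lid A P (φ.rTensor P $(Module.Invertible.tmul_comm (m₁ := m) (m₂ := x))))⟩

namespace LB

variable (L : LB D R) {i : Fin 2}

/-- A power of the coordinate moves any overlap section into the lattice. -/
theorem exists_pow_smul_mem (i : Fin 2) (m : L.M) : ∃ n : ℕ, D.tR R i ^ n • m ∈ L.L i :=
  CurveData.exists_pow_smul_mem_of_mem_span (L.span_L i ▸ Submodule.mem_top)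

theorem pow_smul_cancel {m m' : L.M} {n : ℕ} (h : D.tR R i ^ n • m = D.tR R i ^ n • m') :
    m = m' := by
  rw [← algebraMap_smul (D.A01 R) (D.tR R i ^ n) m, ← algebraMap_smul (D.A01 R) (D.tR R i ^ n) m',
    map_pow] at h
  exact ((CurveData.isUnit_tR i).pow n).smul_left_cancel.mp h

instance isLocalizedModule_subtype (i : Fin 2) :
    IsLocalizedModule (Submonoid.powers (D.tR R i)) (L.L i).subtype where
  map_units := by
    rintro ⟨_, n, rfl⟩
    rw [Module.End.isUnit_iff]
    refine ⟨fun x y h => L.pow_smul_cancel (i := i) h, fun y => ⟨D.tInv R i ^ n • y, ?_⟩⟩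
    change D.tR R i ^ n • (D.tInv R i ^ n • y) = y
    rw [← algebraMap_smul (D.A01 R) (D.tR R i ^ n), map_pow, smul_smul, ← mul_pow, mul_comm,
      CurveData.tInv_mul, one_pow, one_smul]
  surj y := by
    obtain ⟨n, hn⟩ := L.exists_pow_smul_mem i y
    exact ⟨(⟨_, hn⟩, ⟨_, n, rfl⟩), rfl⟩
  exists_of_eq h := ⟨1, by rw [Subtype.ext h]⟩

variable {T : Type u} [AddCommGroup T] [Module (D.A01 R) T] [Module (D.A R i) T]
    [IsScalarTower (D.A R i) (D.A01 R) T]

/-- The extension to the overlap of a linear map on a lattice. -/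
def extendLattice (f : L.L i →ₗ[D.A R i] T) : L.M →ₗ[D.A01 R] T :=
  (IsLocalizedModule.lift (Submonoid.powers (D.tR R i)) (L.L i).subtype f fun x => by
    obtain ⟨_, n, rfl⟩ := x
    rw [Module.End.isUnit_iff]
    refine ⟨fun x y h => ?_, fun y => ⟨D.tInv R i ^ n • y, ?_⟩⟩
    · change D.tR R i ^ n • x = D.tR R i ^ n • y at h
      rw [← algebraMap_smul (D.A01 R) (D.tR R i ^ n) x,
        ← algebraMap_smul (D.A01 R) (D.tR R i ^ n) y, map_pow] at h
      exact ((CurveData.isUnit_tR i).pow n).smul_left_cancel.mp h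
    · change D.tR R i ^ n • (D.tInv R i ^ n • y) = y
      rw [← algebraMap_smul (D.A01 R) (D.tR R i ^ n), map_pow, smul_smul, ← mul_pow, mul_comm,
        CurveData.tInv_mul, one_pow, one_smul]).extendScalarsOfIsLocalization
    (Submonoid.powers (D.tR R i)) (D.A01 R)

@[simp]
theorem extendLattice_apply (f : L.L i →ₗ[D.A R i] T) (x : L.L i) : L.extendLattice f x = f x := by
  unfold LB.extendLattice
  rw [LinearMap.extendScalarsOfIsLocalization_apply']
  exact IsLocalizedModule.lift_apply (Submonoid.powers (D.tR R i)) (L.L i).subtype f _ x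

/-- The extension of a linear map agrees with it on the lattice. -/
theorem extendLattice_apply_mem (f : L.L i →ₗ[D.A R i] T) {m : L.M} (hm : m ∈ L.L i) :
    L.extendLattice f m = f ⟨m, hm⟩ := L.extendLattice_apply f ⟨m, hm⟩

omit [Module (D.A R i) T] [IsScalarTower (D.A R i) (D.A01 R) T] in
/-- Linear maps on the overlap are determined by their values on a lattice. -/
theorem linearMap_ext {f g : L.M →ₗ[D.A01 R] T} (h : ∀ m ∈ L.L i, f m = g m) : f = g :=
  LinearMap.ext_on (L.span_L i) h

/-- The coordinates in a dual basis of a lattice, extended to the overlap. -/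
theorem exists_dual_basis_chart (i : Fin 2) :
    ∃ (n : ℕ) (χ : Fin n → L.M →ₗ[D.A01 R] D.A01 R) (φ : Fin n → L.L i →ₗ[D.A R i] D.A R i)
      (y : Fin n → L.L i), (∀ j (x : L.L i), χ j x = algebraMap (D.A R i) (D.A01 R) (φ j x)) ∧
        (∀ x : L.L i, ∑ j, φ j x • y j = x) ∧ ∀ m : L.M, ∑ j, χ j m • (y j : L.M) = m := by
  obtain ⟨n, φ, y, h⟩ := exists_dual_basis (D.A R i) (L.L i)
  let χ : Fin n → L.M →ₗ[D.A01 R] D.A01 R := fun j => L.extendLattice (Algebra.linearMap _ _ ∘ₗ φ j)
  have hχ : ∀ j (x : L.L i), χ j x = algebraMap (D.A R i) (D.A01 R) (φ j x) :=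
    fun j x => by simp [χ]
  refine ⟨n, χ, φ, y, hχ, h, fun m => ?_⟩
  have : (∑ j, (χ j).smulRight (y j : L.M)) = LinearMap.id :=
    L.linearMap_ext (i := i) fun m hm => by
    simpa [hχ _ ⟨m, hm⟩, algebraMap_smul] using congr(($(h ⟨m, hm⟩) : L.M))
  simpa using LinearMap.congr_fun this m

end LB

end Fermat.Agent.Jac

end
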