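import Fermat.Agent.Jac.Ops.Mor

/-!
# Twists and bundles of homomorphisms
-/

set_option autoImplicit false

universe u

noncomputable section

open TensorProduct

namespace Fermat.Agent.Jac

variable {k : Type u} [Field k] {D : CurveData k}
variable {R R' : Type u} [CommRing R] [Algebra k R] [CommRing R'] [Algebra k R']

namespace LB

/-- Allowing a pole of order `n` along the zeros of the coordinate of the second chart. -/
def twist (L : LB D R) (n : ℕ) : LB D R :=
  { L with
    L := fun i => (L.L i).comap (LinearMap.lsmul (D.A R i) L.M (D.tR R i ^ (n * (i : ℕ))))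
    invertible_L := fun i => by
      let e : L.M ≃ₗ[D.A R i] L.M := LinearEquiv.ofBijective
        (LinearMap.lsmul (D.A R i) L.M (D.tR R i ^ (n * (i : ℕ)))) (CurveData.bijective_pow_smul _)
      have he : (L.L i).map e.symm.toLinearMap = (L.L i).comap e.toLinearMap :=
        Submodule.map_equiv_eq_comap_symm e.symm (L.L i)
      exact Module.Invertible.congr ((e.symm.submoduleMap (L.L i)).trans (LinearEquiv.ofEq _ _ he))
    span_L := fun i => CurveData.span_eq_top_of_pow_smul_mem (i := i) fun m => by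
      obtain ⟨N, hN⟩ := L.exists_pow_smul_mem i m
      exact ⟨N, show D.tR R i ^ (n * (i : ℕ)) • D.tR R i ^ N • m ∈ L.L i from
        (L.L i).smul_mem _ hN⟩ }

/-- Twisting by `n` keeps the first lattice and turns the second into the `m` with `t ^ n • m` in
it. -/
theorem mem_twist {L : LB D R} {n : ℕ} {i : Fin 2} {m : L.M} :
    m ∈ (L.twist n).L i ↔ D.tR R i ^ (n * (i : ℕ)) • m ∈ L.L i := Iff.rfl

/-- Twists commute with base change. -/
def Mor.twist {φ : R →ₐ[k] R'} {L : LB D R} {L' : LB D R'} (g : Mor φ L L') (n : ℕ) :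
    Mor φ (L.twist n) (L'.twist n) where
  f := g.f
  map_smul := g.map_smul
  span_map i := by
    have key : ∀ m : L.M,
        g.f (D.tR R i ^ (n * (i : ℕ)) • m) = D.tR R' i ^ (n * (i : ℕ)) • g.f m := fun m => by
      rw [g.f_smul_chart, map_pow, CurveData.mapA_coord]
    let T : Set L.M := {m | D.tR R i ^ (n * (i : ℕ)) • m ∈ L.L i}
    let U : Submodule (D.A R' i) L'.M := Submodule.span (D.A R' i) (g.f '' T)
    refine le_antisymm (Submodule.span_le.mpr ?_) fun x hx => ?_
    · rintro _ ⟨m, hm, rfl⟩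
      exact (key m ▸ g.map_mem (i := i) hm : D.tR R' i ^ (n * (i : ℕ)) • g.f m ∈ L'.L i)
    · have hb : ∀ y ∈ Submodule.span (D.A R' i) (g.f '' (L.L i : Set L.M)), ∃ z : L'.M,
          z ∈ U ∧ D.tR R' i ^ (n * (i : ℕ)) • z = y := fun y hy => by
        induction hy using Submodule.span_induction with
        | mem y hy =>
          obtain ⟨l, hl, rfl⟩ := hy
          obtain ⟨m, hm⟩ := (CurveData.bijective_pow_smul (D := D) (R := R) (T := L.M) (i := i)
            (n * (i : ℕ))).2 l
          exact ⟨g.f m, Submodule.subset_span ⟨m, show D.tR R i ^ (n * (i : ℕ)) • m ∈ L.L i by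
              rw [show D.tR R i ^ (n * (i : ℕ)) • m = l from hm]; exact hl, rfl⟩,
            (key m).symm.trans (congrArg g.f hm)⟩
        | zero => exact ⟨0, zero_mem _, smul_zero _⟩
        | add a b _ _ ha hb =>
          obtain ⟨z, hz, rfl⟩ := ha
          obtain ⟨w, hw, rfl⟩ := hb
          exact ⟨z + w, add_mem hz hw, smul_add _ _ _⟩
        | smul a b _ hb =>
          obtain ⟨z, hz, rfl⟩ := hb
          exact ⟨a • z, Submodule.smul_mem _ a hz, smul_comm _ _ _⟩
      have hx' : D.tR R' i ^ (n * (i : ℕ)) • (x : L'.M) ∈ L'.L i := hx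
      rw [← g.span_map i] at hx'
      obtain ⟨z, hz, hzx⟩ := hb _ hx'
      have hzx' : z = x := (CurveData.bijective_pow_smul (D := D) (R := R') (T := L'.M)
        (i := i) _).1 hzx
      exact hzx' ▸ hz

/-- The bundle of homomorphisms. -/
def hom (L L' : LB D R) : LB D R where
  M := L.M →ₗ[D.A01 R] L'.M
  invertible := Module.Invertible.congr (dualTensorHomEquiv (D.A01 R) L.M L'.M)
  L i :=
    { carrier := {ψ | ∀ m ∈ L.L i, ψ m ∈ L'.L i}
      add_mem' := fun hψ hψ' m hm => add_mem (hψ m hm) (hψ' m hm)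
      zero_mem' := fun _ _ => zero_mem _
      smul_mem' := fun a _ hψ m hm => (L'.L i).smul_mem a (hψ m hm) }
  invertible_L i :=
    Module.Invertible.congr ((dualTensorHomEquiv (D.A R i) (L.L i) (L'.L i)).trans
      { toFun := fun f => ⟨L.extendLattice ((L'.L i).subtype ∘ₗ f), fun m hm => by
          rw [L.extendLattice_apply_mem _ hm]
          exact (f ⟨m, hm⟩).2⟩
        map_add' := fun f f' => Subtype.ext (L.linearMap_ext (i := i) fun m hm => by
          simp [L.extendLattice_apply_mem _ hm])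
        map_smul' := fun a f => Subtype.ext (L.linearMap_ext (i := i) fun m hm => by
          simp [L.extendLattice_apply_mem _ hm])
        invFun := fun ψ => (((ψ : L.M →ₗ[D.A01 R] L'.M).restrictScalars (D.A R i)) ∘ₗ
          (L.L i).subtype).codRestrict
          (L'.L i) fun m => ψ.2 m.1 m.2
        left_inv := fun f => LinearMap.ext fun m =>
          Subtype.ext (L.extendLattice_apply ((L'.L i).subtype ∘ₗ f) m)
        right_inv := fun ψ => Subtype.ext (L.linearMap_ext (i := i) fun m hm =>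
          (L.extendLattice_apply_mem _ hm).trans rfl) })
  span_L i := CurveData.span_eq_top_of_pow_smul_mem (i := i) fun ψ => by
    obtain ⟨n, -, φc, y, -, hsum, -⟩ := L.exists_dual_basis_chart i
    choose N hN using fun j => L'.exists_pow_smul_mem i (ψ (y j : L.M))
    refine ⟨∑ j, N j, fun m hm => ?_⟩
    have hψ : ψ m = ∑ j, φc j ⟨m, hm⟩ • ψ (y j : L.M) := by
      have := congr(ψ ($(hsum ⟨m, hm⟩) : L.L i).1)
      simp only [Submodule.coe_sum, map_sum, SetLike.val_smul, LinearMap.map_smul_of_tower] at this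
      exact this.symm
    rw [LinearMap.smul_apply, hψ, Finset.smul_sum]
    refine sum_mem fun j _ => ?_
    rw [smul_comm, ← Finset.add_sum_erase _ _ (Finset.mem_univ j), add_comm, pow_add, mul_smul]
    exact (L'.L i).smul_mem _ ((L'.L i).smul_mem _ (hN j))

/-- An element of the homomorphism bundle as a linear map. -/
def toMap {L L' : LB D R} : (L.hom L').M ≃ₗ[D.A01 R] (L.M →ₗ[D.A01 R] L'.M) := LinearEquiv.refl _ _

/-- A homomorphism is in a lattice exactly when it maps that lattice into the target lattice. -/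
theorem mem_hom {L L' : LB D R} {i : Fin 2} {ψ : (L.hom L').M} :
    ψ ∈ (L.hom L').L i ↔ ∀ m ∈ L.L i, toMap ψ m ∈ L'.L i := Iff.rfl

section

variable {φ : R →ₐ[k] R'} {L₁ L₂ : LB D R} {L₁' L₂' : LB D R'}

/-- The base change of a homomorphism. -/
def Mor.homMap (g₁ : Mor φ L₁ L₁') (g₂ : Mor φ L₂ L₂') :
    (L₁.M →ₗ[D.A01 R] L₂.M) →+ (L₁'.M →ₗ[D.A01 R'] L₂'.M) where
  toFun ψ := g₁.lift (g₂.f.comp ψ.toAddMonoidHom) fun a m => by simp [g₂.map_smul]
  map_zero' := g₁.linearMap_ext fun m => (g₁.lift_apply _ _ m).trans (by simp)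
  map_add' ψ ψ' := g₁.linearMap_ext fun m => by
    refine (g₁.lift_apply _ _ m).trans (Eq.trans ?_
      ((LinearMap.add_apply _ _ _).trans
        (congrArg₂ (· + ·) (g₁.lift_apply _ _ m) (g₁.lift_apply _ _ m))).symm)
    simp

theorem Mor.homMap_apply (g₁ : Mor φ L₁ L₁') (g₂ : Mor φ L₂ L₂') (ψ : L₁.M →ₗ[D.A01 R] L₂.M)
    (m : L₁.M) :
    g₁.homMap g₂ ψ (g₁.f m) = g₂.f (ψ m) := g₁.lift_apply _ _ m

/-- Homomorphism bundles commute with base change. -/
def Mor.hom (g₁ : Mor φ L₁ L₁') (g₂ : Mor φ L₂ L₂') : Mor φ (L₁.hom L₂) (L₁'.hom L₂') where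
  f := g₁.homMap g₂
  map_smul a ψ := g₁.linearMap_ext fun m => by
    let ψ₀ : L₁.M →ₗ[D.A01 R] L₂.M := ψ
    exact (g₁.homMap_apply g₂ (a • ψ₀) m).trans ((g₂.map_smul a (ψ₀ m)).trans
      (congrArg (D.mapA01 φ a • ·) (g₁.homMap_apply g₂ ψ₀ m).symm))
  span_map i := by
    refine le_antisymm (Submodule.span_le.mpr ?_) fun ψ hψ => ?_
    -- Base change of a homomorphism maps lattices to lattices, as they are spanned by the images.
    · rintro _ ⟨ψ, hψ, rfl⟩ m hm
      let ψ₀ : L₁.M →ₗ[D.A01 R] L₂.M := ψ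
      change g₁.homMap g₂ ψ₀ m ∈ L₂'.L i
      generalize hF : g₁.homMap g₂ ψ₀ = F
      rw [← g₁.span_map i] at hm
      induction hm using Submodule.span_induction with
      | mem x hx =>
        obtain ⟨l, hl, rfl⟩ := hx
        rw [← hF, Mor.homMap_apply]
        exact g₂.map_mem (hψ l hl)
      | zero => rw [_root_.map_zero]; exact zero_mem _
      | add x y _ _ hx hy => rw [_root_.map_add]; exact add_mem hx hy
      | smul a x _ hx => rw [LinearMap.map_smul_of_tower]; exact Submodule.smul_mem _ a hx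
    -- Conversely expand `ψ` in a dual basis of the source lattice.
    · obtain ⟨n, χ, φc, y, χ', φc', hχ, hχ', -, -, -, hsum⟩ := g₁.exists_dual_basis_chart i
      let ψ₀ : L₁'.M →ₗ[D.A01 R'] L₂'.M := ψ
      have hψ₀ : (∑ j, (χ' j).smulRight (ψ₀ (g₁.f (y j)))) = ψ₀ := LinearMap.ext fun m => by
        simp only [LinearMap.coe_sum, Finset.sum_apply, LinearMap.smulRight_apply]
        rw [← Finset.sum_congr rfl fun j _ => _root_.map_smul ψ₀ (χ' j m) (g₁.f (y j)),
          ← map_sum, hsum]
      change ψ₀ ∈ Submodule.span (D.A R' i) (g₁.homMap g₂ '' _)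
      rw [← hψ₀]
      refine sum_mem fun j _ => ?_
      have hy : ψ₀ (g₁.f (y j)) ∈ Submodule.span (D.A R' i) (g₂.f '' (L₂.L i : Set L₂.M)) :=
        (g₂.span_map i).symm ▸ hψ _ (g₁.map_mem (y j).2)
      generalize ψ₀ (g₁.f (y j)) = z at hy ⊢
      induction hy using Submodule.span_induction with
      | mem x hx =>
        obtain ⟨l, hl, rfl⟩ := hx
        refine Submodule.subset_span ⟨(χ j).smulRight l, fun m hm => ?_,
          g₁.linearMap_ext fun m => ?_⟩
        · change χ j m • l ∈ L₂.L i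
          rw [hχ j ⟨m, hm⟩, algebraMap_smul]
          exact (L₂.L i).smul_mem _ hl
        · rw [Mor.homMap_apply, LinearMap.smulRight_apply, LinearMap.smulRight_apply,
            g₂.map_smul, hχ']
      | zero =>
        rw [show (χ' j).smulRight (0 : L₂'.M) = 0 from LinearMap.ext fun m => by simp]
        exact zero_mem _
      | add x x' _ _ hx hx' =>
        rw [show (χ' j).smulRight (x + x') = (χ' j).smulRight x + (χ' j).smulRight x' from
          LinearMap.ext fun m => by simp]
        exact add_mem hx hx'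
      | smul a x _ hx =>
        rw [show (χ' j).smulRight (a • x) = a • (χ' j).smulRight x from
          LinearMap.ext fun m => smul_comm _ _ _]
        exact Submodule.smul_mem _ a hx

/-- Base change of homomorphisms commutes with evaluation. -/
theorem Mor.hom_apply (g₁ : Mor φ L₁ L₁') (g₂ : Mor φ L₂ L₂') (ψ : (L₁.hom L₂).M) (m : L₁.M) :
    toMap ((g₁.hom g₂).f ψ) (g₁.f m) = g₂.f (toMap ψ m) := g₁.homMap_apply g₂ ψ m

end

/-- An isomorphism in each variable gives an isomorphism of homomorphism bundles. -/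
def Iso.hom {L₁ L₂ L₁' L₂' : LB D R} (e₁ : L₁.Iso L₁') (e₂ : L₂.Iso L₂') :
    (L₁.hom L₂).Iso (L₁'.hom L₂') where
  e := LinearEquiv.arrowCongr e₁.e e₂.e
  mem_iff i ψ := by
    let ψ₀ : L₁.M →ₗ[D.A01 R] L₂.M := ψ
    refine ⟨fun h m hm => ?_, fun h m hm => ?_⟩
    · have h' : e₂.e (ψ₀ (e₁.e.symm (e₁.e m))) ∈ L₂'.L i := h (e₁.e m) ((e₁.mem_iff i m).mpr hm)
      rw [LinearEquiv.symm_apply_apply] at h'
      exact (e₂.mem_iff i _).mp h'
    · change e₂.e (ψ₀ (e₁.e.symm m)) ∈ L₂'.L i
      exact (e₂.mem_iff i _).mpr (h _ ((e₁.mem_iff i _).mp (by simpa using hm)))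

end LB

end Fermat.Agent.Jac

end
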