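import Fermat.Agent.Jac.Ops.Basic

/-!
# Base change of bundles

A morphism presents the target as the base change of the source: on the overlap, on each chart, and
for the module structures over the test algebras.

The morphisms are `LB.Mor`; `LB.toBaseChange` goes to the base change and any two are isomorphic
(`LB.Mor.targetIso`).
-/

set_option autoImplicit false

universe u

noncomputable section

open TensorProduct

namespace Fermat.Agent.Jac

variable {k : Type u} [Field k] {D : CurveData k}
variable {R R' R'' : Type u} [CommRing R] [Algebra k R] [CommRing R'] [Algebra k R'] [CommRing R'']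
    [Algebra k R'']

namespace LB

/-! ### The base change on the overlap -/

/-- The overlap ring over `R'` as an algebra over the one over `R`. -/
@[reducible] def algA01 (D : CurveData k) (φ : R →ₐ[k] R') : Algebra (D.A01 R) (D.A01 R') :=
  (D.mapA01 φ).toRingHom.toAlgebra

/-- The module of the base change on the overlap. -/
def bcM (L : LB D R) (φ : R →ₐ[k] R') : Type u :=
  letI := algA01 D φ
  D.A01 R' ⊗[D.A01 R] L.M

section bcM

variable (L : LB D R) (φ : R →ₐ[k] R')

instance addCommGroupBcM : AddCommGroup (L.bcM φ) :=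
  letI := algA01 D φ
  (inferInstance : AddCommGroup (D.A01 R' ⊗[D.A01 R] L.M))

instance moduleBcM : Module (D.A01 R') (L.bcM φ) :=
  letI := algA01 D φ
  (inferInstance : Module (D.A01 R') (D.A01 R' ⊗[D.A01 R] L.M))

instance invertibleBcM : Module.Invertible (D.A01 R') (L.bcM φ) :=
  letI := algA01 D φ
  (inferInstance : Module.Invertible (D.A01 R') (D.A01 R' ⊗[D.A01 R] L.M))

instance moduleBaseBcM : Module R' (L.bcM φ) := Module.compHom _ (algebraMap R' (D.A01 R'))

instance moduleChartBcM (i : Fin 2) : Module (D.A R' i) (L.bcM φ) :=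
  Module.compHom _ (algebraMap (D.A R' i) (D.A01 R'))

instance towerBaseBcM : IsScalarTower R' (D.A01 R') (L.bcM φ) := .of_algebraMap_smul fun _ _ => rfl

instance towerChartBcM (i : Fin 2) : IsScalarTower (D.A R' i) (D.A01 R') (L.bcM φ) :=
  .of_algebraMap_smul fun _ _ => rfl

instance towerBaseChartBcM (i : Fin 2) : IsScalarTower R' (D.A R' i) (L.bcM φ) :=
  .of_algebraMap_smul fun r m => by
    rw [← algebraMap_smul (D.A01 R') (algebraMap R' (D.A R' i) r) m,
      ← IsScalarTower.algebraMap_apply, algebraMap_smul]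

/-- The map to the base change. -/
def bcMk : L.M →+ L.bcM φ :=
  letI := algA01 D φ
  (TensorProduct.mk (D.A01 R) (D.A01 R') L.M 1).toAddMonoidHom

theorem bcMk_smul (a : D.A01 R) (m : L.M) : L.bcMk φ (a • m) = D.mapA01 φ a • L.bcMk φ m := by
  let := algA01 D φ
  change (1 : D.A01 R') ⊗ₜ[D.A01 R] (a • m) = D.mapA01 φ a • ((1 : D.A01 R') ⊗ₜ[D.A01 R] m)
  rw [TensorProduct.tmul_smul]
  exact algebraMap_smul (D.A01 R') a _ |>.symm

theorem bcMk_smul_chart {i : Fin 2} (a : D.A R i) (m : L.M) :
    L.bcMk φ (a • m) = D.mapA φ i a • L.bcMk φ m := by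
  rw [← algebraMap_smul (D.A01 R) a m, bcMk_smul, CurveData.mapA01_res, algebraMap_smul]

theorem span_range_bcMk : Submodule.span (D.A01 R') (Set.range (L.bcMk φ)) = ⊤ := by
  let := algA01 D φ
  rw [eq_top_iff]
  intro x _
  induction x using TensorProduct.induction_on with
  | zero => exact zero_mem _
  | tmul a m =>
    have h : (a ⊗ₜ[D.A01 R] m : D.A01 R' ⊗[D.A01 R] L.M) = a • ((1 : D.A01 R') ⊗ₜ[D.A01 R] m) := by
      rw [TensorProduct.smul_tmul', smul_eq_mul, mul_one]
    rw [h]
    exact Submodule.smul_mem _ a (Submodule.subset_span ⟨m, rfl⟩)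
  | add x y hx hy => exact add_mem (hx Submodule.mem_top) (hy Submodule.mem_top)

variable {T : Type u} [AddCommGroup T] [Module (D.A01 R') T]

/-- The universal property of the base change on the overlap. -/
def bcLift (h : L.M →+ T) (hh : ∀ (a : D.A01 R) m, h (a • m) = D.mapA01 φ a • h m) :
    L.bcM φ →ₗ[D.A01 R'] T :=
  letI := algA01 D φ
  letI : Module (D.A01 R) T := Module.compHom T (algebraMap (D.A01 R) (D.A01 R'))
  haveI : IsScalarTower (D.A01 R) (D.A01 R') T := .of_algebraMap_smul fun _ _ => rfl
  LinearMap.liftBaseChange (D.A01 R') { toFun := h, map_add' := h.map_add, map_smul' := hh }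

theorem bcLift_mk (h : L.M →+ T) (hh : ∀ (a : D.A01 R) m, h (a • m) = D.mapA01 φ a • h m)
    (m : L.M) :
    L.bcLift φ h hh (L.bcMk φ m) = h m := by
  let := algA01 D φ
  let : Module (D.A01 R) T := Module.compHom T (algebraMap (D.A01 R) (D.A01 R'))
  have : IsScalarTower (D.A01 R) (D.A01 R') T := .of_algebraMap_smul fun _ _ => rfl
  exact (LinearMap.liftBaseChange_tmul (A := D.A01 R') _ 1 m).trans (one_smul _ _)

end bcM

/-! ### The base change of a bundle -/

/-- The base change of a bundle. -/
def baseChange (L : LB D R) (φ : R →ₐ[k] R') : LB D R' where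
  M := L.bcM φ
  L i := Submodule.span (D.A R' i) (L.bcMk φ '' (L.L i : Set L.M))
  invertible_L i := by
    refine invertible_of_local_generators fun p => ?_
    -- Near a point a local functional `χ` with generator `f` of the lattice maps to one downstairs.
    obtain ⟨χ, f, hf, hgen⟩ := exists_local_functional (D.A R i) (L.L i)
      (PrimeSpectrum.comap (D.mapA φ i).toRingHom p)
    refine ⟨D.mapA φ i (χ f), hf, ⟨_, Submodule.subset_span ⟨f, f.2, rfl⟩⟩, fun x => ⟨1, ?_⟩,
      fun a ha => ⟨1, ?_⟩⟩
    · rw [pow_one, Submodule.mem_span_singleton]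
      obtain ⟨x, hx⟩ := x
      suffices ∃ c : D.A R' i, c • L.bcMk φ f = D.mapA φ i (χ f) • x by
        obtain ⟨c, hc⟩ := this
        exact ⟨c, Subtype.ext hc⟩
      induction hx using Submodule.span_induction with
      | mem y hy =>
        obtain ⟨l, hl, rfl⟩ := hy
        refine ⟨D.mapA φ i (χ ⟨l, hl⟩), ?_⟩
        have h := congr(L.bcMk φ ($(hgen ⟨l, hl⟩) : L.L i).1)
        simp only [SetLike.val_smul, bcMk_smul_chart] at h
        exact h.symm
      | zero => exact ⟨0, by simp⟩
      | add y z _ _ hy hz =>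
        obtain ⟨c, hc⟩ := hy
        obtain ⟨d, hd⟩ := hz
        exact ⟨c + d, by rw [add_smul, hc, hd, smul_add]⟩
      | smul b y _ hy =>
        obtain ⟨c, hc⟩ := hy
        exact ⟨b * c, by rw [mul_smul, hc, smul_comm]⟩
    -- For torsion-freeness evaluate the base change of the extension of `χ`.
    · let χ0 : L.M →ₗ[D.A01 R] D.A01 R := L.extendLattice (Algebra.linearMap _ _ ∘ₗ χ)
      let χ1 := L.bcLift φ ((D.mapA01 φ).toAddMonoidHom.comp χ0.toAddMonoidHom) fun b m => by simp
      have h1 : χ1 (L.bcMk φ f) = algebraMap (D.A R' i) (D.A01 R') (D.mapA φ i (χ f)) :=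
        (L.bcLift_mk φ _ _ _).trans (by simp [χ0, CurveData.mapA01_res])
      have h2 : a • L.bcMk φ f = 0 :=
        congr(($ha : Submodule.span (D.A R' i) (L.bcMk φ '' (L.L i : Set L.M))).1)
      have h3 := congr(χ1 $h2)
      rw [← algebraMap_smul (D.A01 R') a, map_smul, h1, map_zero, smul_eq_mul, ← map_mul,
        map_eq_zero_iff _ (D.resR_injective R' i)] at h3
      rwa [pow_one, mul_comm]
  span_L i := by
    rw [eq_top_iff, ← L.span_range_bcMk φ, Submodule.span_le]
    rintro _ ⟨m, rfl⟩
    have hm : m ∈ Submodule.span (D.A01 R) (L.L i : Set L.M) := L.span_L i ▸ Submodule.mem_top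
    induction hm using Submodule.span_induction with
    | mem x hx => exact Submodule.subset_span (Submodule.subset_span ⟨x, hx, rfl⟩)
    | zero => rw [map_zero]; exact zero_mem _
    | add x y _ _ hx hy => rw [map_add]; exact add_mem hx hy
    | smul a x _ hx => rw [bcMk_smul]; exact Submodule.smul_mem _ _ hx

/-- The base change morphism. -/
def toBaseChange (L : LB D R) (φ : R →ₐ[k] R') : Mor φ L (L.baseChange φ) where
  f := L.bcMk φ
  map_smul := L.bcMk_smul φ
  span_map _ := rfl

/-! ### Morphisms -/

namespace Mor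

variable {φ : R →ₐ[k] R'} {L : LB D R} {L' : LB D R'} (g : Mor φ L L') {i : Fin 2}

/-- Base change is semilinear over the charts. -/
theorem f_smul_chart (a : D.A R i) (m : L.M) : g.f (a • m) = D.mapA φ i a • g.f m := by
  rw [← algebraMap_smul (D.A01 R) a m, g.map_smul, CurveData.mapA01_res, algebraMap_smul]

/-- Base change is semilinear over the base. -/
theorem f_smul_base (r : R) (m : L.M) : g.f (r • m) = φ r • g.f m := by
  rw [← algebraMap_smul (D.A01 R) r m, g.map_smul, CurveData.mapA01_algebraMapBase, algebraMap_smul]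

/-- The images of a base change span the target. -/
theorem span_top : Submodule.span (D.A01 R') (Set.range g.f) = ⊤ := by
  rw [eq_top_iff, ← L'.span_L 0, ← g.span_map 0, Submodule.span_span_of_tower]
  exact Submodule.span_mono (Set.image_subset_range _ _)

/-- The identity base change. -/
protected def id (L : LB D R) : Mor (AlgHom.id k R) L L where
  f := AddMonoidHom.id _
  map_smul a m := by rw [CurveData.mapA01_id]; rfl
  span_map i := by simp

/-- Composition of base changes. -/
def comp {ψ : R' →ₐ[k] R''} {L'' : LB D R''} (g : Mor φ L L') (g' : Mor ψ L' L'') :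
    Mor (ψ.comp φ) L L'' where
  f := g'.f.comp g.f
  map_smul a m := by
    rw [AddMonoidHom.comp_apply, g.map_smul, g'.map_smul, CurveData.mapA01_comp]; rfl
  span_map i := by
    refine le_antisymm (Submodule.span_le.mpr ?_) ?_
    · rintro _ ⟨m, hm, rfl⟩
      exact g'.map_mem (g.map_mem hm)
    · rw [← g'.span_map i, Submodule.span_le]
      rintro _ ⟨x, hx, rfl⟩
      have hx' : x ∈ Submodule.span (D.A R' i) (g.f '' (L.L i : Set L.M)) :=
        (g.span_map i).symm ▸ hx
      induction hx' using Submodule.span_induction with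
      | mem y hy =>
        obtain ⟨m, hm, rfl⟩ := hy
        exact Submodule.subset_span ⟨m, hm, rfl⟩
      | zero => rw [map_zero]; exact zero_mem _
      | add y z hy hz hy' hz' =>
        rw [map_add]
        exact add_mem (hy' (g.span_map i ▸ hy)) (hz' (g.span_map i ▸ hz))
      | smul a y hy hy' =>
        rw [g'.f_smul_chart]
        exact Submodule.smul_mem _ _ (hy' (g.span_map i ▸ hy))

/-- A base change followed by an isomorphism. -/
def transIso {L'' : LB D R'} (g : Mor φ L L') (e : L'.Iso L'') : Mor φ L L'' where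
  f := e.e.toAddEquiv.toAddMonoidHom.comp g.f
  map_smul a m := by
    change e.e (g.f (a • m)) = D.mapA01 φ a • e.e (g.f m)
    rw [g.map_smul, _root_.map_smul]
  span_map i := by
    change Submodule.span (D.A R' i) ((e.e ∘ g.f) '' (L.L i : Set L.M)) = L''.L i
    rw [Set.image_comp]
    refine (Submodule.span_image (e.e.toLinearMap.restrictScalars (D.A R' i))).trans ?_
    ext x
    rw [g.span_map, Submodule.mem_map]
    exact ⟨fun ⟨y, hy, h⟩ => h ▸ (e.mem_iff i y).mpr hy,
      fun hx => ⟨e.e.symm x, (e.mem_iff i _).mp (by simpa using hx), e.e.apply_symm_apply x⟩⟩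

/-- An isomorphism followed by a base change. -/
def isoTrans {L₁ : LB D R} (e : L₁.Iso L) (g : Mor φ L L') : Mor φ L₁ L' where
  f := g.f.comp e.e.toAddEquiv.toAddMonoidHom
  map_smul a m := by
    change g.f (e.e (a • m)) = D.mapA01 φ a • g.f (e.e m)
    rw [_root_.map_smul, g.map_smul]
  span_map i := by
    rw [← g.span_map i]
    congr 1
    ext x
    exact ⟨fun ⟨m, hm, h⟩ => ⟨e.e m, (e.mem_iff i m).mpr hm, h⟩,
      fun ⟨m, hm, h⟩ => ⟨e.e.symm m, (e.mem_iff i _).mp (by simpa using hm),
        (congrArg g.f (e.e.apply_symm_apply m)).trans h⟩⟩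

/-- The image of a lattice spans the base changed overlap module. -/
theorem span_image_eq_top (i : Fin 2) :
    Submodule.span (D.A01 R') (g.f '' (L.L i : Set L.M)) = ⊤ := by
  rw [eq_top_iff, ← L'.span_L i, Submodule.span_le]
  intro x hx
  rw [← g.span_map i] at hx
  exact Submodule.span_subset_span (D.A R' i) (D.A01 R') _ hx

theorem linearMap_ext {T : Type u} [AddCommGroup T] [Module (D.A01 R') T]
    {h h' : L'.M →ₗ[D.A01 R'] T} (e : ∀ m, h (g.f m) = h' (g.f m)) : h = h' :=
  LinearMap.ext_on (g.span_image_eq_top 0) fun _ ⟨m, _, hm⟩ => hm ▸ e m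

/-- The base change on the overlap is the target. -/
def equiv : L.bcM φ ≃ₗ[D.A01 R'] L'.M :=
  LinearEquiv.ofBijective (L.bcLift φ g.f g.map_smul) <|
      Module.Invertible.bijective_of_surjective (by
    rw [← LinearMap.range_eq_top, eq_top_iff, ← g.span_image_eq_top 0, Submodule.span_le]
    rintro _ ⟨m, -, rfl⟩
    exact ⟨_, L.bcLift_mk φ _ _ m⟩)

theorem equiv_mk (m : L.M) : g.equiv (L.bcMk φ m) = g.f m := L.bcLift_mk φ _ _ m

/-- Semilinear maps extend uniquely to the base change. -/
def lift {T : Type u} [AddCommGroup T] [Module (D.A01 R') T] (h : L.M →+ T)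
    (hh : ∀ (a : D.A01 R) m, h (a • m) = D.mapA01 φ a • h m) : L'.M →ₗ[D.A01 R'] T :=
  L.bcLift φ h hh ∘ₗ g.equiv.symm.toLinearMap

theorem lift_apply {T : Type u} [AddCommGroup T] [Module (D.A01 R') T] (h : L.M →+ T)
    (hh : ∀ (a : D.A01 R) m, h (a • m) = D.mapA01 φ a • h m) (m : L.M) :
    g.lift h hh (g.f m) = h m := by
  simp [Mor.lift, ← g.equiv_mk, bcLift_mk]

/-- Two base changes along the same map are canonically isomorphic. -/
def targetIso {L'' : LB D R'} (g : Mor φ L L') (g' : Mor φ L L'') : L'.Iso L'' where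
  e := g.equiv.symm ≪≫ₗ g'.equiv
  mem_iff i m := by
    have key : ∀ {L' L'' : LB D R'} (g : Mor φ L L') (g' : Mor φ L L'') (x : L'.M),
        x ∈ L'.L i → g'.equiv (g.equiv.symm x) ∈ L''.L i := fun {L' L''} g g' x hx => by
      rw [← g.span_map i] at hx
      induction hx using Submodule.span_induction with
      | mem y hy =>
        obtain ⟨l, hl, rfl⟩ := hy
        rw [← g.equiv_mk, LinearEquiv.symm_apply_apply, g'.equiv_mk]
        exact g'.map_mem hl
      | zero => simp
      | add y z _ _ hy hz => rw [map_add, map_add]; exact add_mem hy hz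
      | smul a y _ hy =>
        rw [← algebraMap_smul (D.A01 R') a y, _root_.map_smul, _root_.map_smul, algebraMap_smul]
        exact Submodule.smul_mem _ a hy
    refine ⟨fun h => ?_, key g g' m⟩
    simpa using key g' g _ h

/-- The comparison of two base changes respects the images of sections. -/
theorem targetIso_apply {L'' : LB D R'} (g : Mor φ L L') (g' : Mor φ L L'') (m : L.M) :
    (g.targetIso g').e (g.f m) = g'.f m := by
  simp [Mor.targetIso, ← g.equiv_mk, ← g'.equiv_mk]

/-- A dual basis of a lattice extends to the base change. -/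
theorem exists_dual_basis_chart (i : Fin 2) :
    ∃ (n : ℕ) (χ : Fin n → L.M →ₗ[D.A01 R] D.A01 R) (φc : Fin n → L.L i →ₗ[D.A R i] D.A R i)
      (y : Fin n → L.L i) (χ' : Fin n → L'.M →ₗ[D.A01 R'] D.A01 R')
      (φc' : Fin n → L'.L i →ₗ[D.A R' i] D.A R' i),
      (∀ j (x : L.L i), χ j x = algebraMap (D.A R i) (D.A01 R) (φc j x)) ∧
      (∀ j m, χ' j (g.f m) = D.mapA01 φ (χ j m)) ∧
      (∀ j (x : L'.L i), χ' j x = algebraMap (D.A R' i) (D.A01 R') (φc' j x)) ∧
      (∀ j (x : L.L i), φc' j ⟨g.f x, g.map_mem x.2⟩ = D.mapA φ i (φc j x)) ∧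
      (∀ x : L.L i, ∑ j, φc j x • y j = x) ∧
      ∀ m : L'.M, ∑ j, χ' j m • g.f (y j) = m := by
  obtain ⟨n, χ, φc, y, hχ, hsum, hsumM⟩ := L.exists_dual_basis_chart i
  let χ' : Fin n → L'.M →ₗ[D.A01 R'] D.A01 R' := fun j =>
    g.lift ((D.mapA01 φ).toAddMonoidHom.comp (χ j).toAddMonoidHom) fun a m => by simp
  have hχ' : ∀ j m, χ' j (g.f m) = D.mapA01 φ (χ j m) := fun j m => g.lift_apply _ _ m
  have hmem : ∀ j (x : L'.L i),
      χ' j x ∈ LinearMap.range (Algebra.linearMap (D.A R' i) (D.A01 R')) :=
    fun j x => by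
      obtain ⟨x, hx⟩ := x
      change χ' j x ∈ LinearMap.range (Algebra.linearMap (D.A R' i) (D.A01 R'))
      rw [← g.span_map i] at hx
      induction hx using Submodule.span_induction with
      | mem y hy =>
        obtain ⟨l, hl, rfl⟩ := hy
        exact ⟨D.mapA φ i (φc j ⟨l, hl⟩), by
          rw [Algebra.linearMap_apply, ← CurveData.mapA01_res, ← hχ, hχ']⟩
      | zero => simp
      | add y z _ _ hy hz => rw [map_add]; exact add_mem hy hz
      | smul a y _ hy =>
        rw [← algebraMap_smul (D.A01 R') a y, _root_.map_smul, algebraMap_smul]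
        exact Submodule.smul_mem _ a hy
  let φc' : Fin n → L'.L i →ₗ[D.A R' i] D.A R' i := fun j =>
    (LinearEquiv.ofInjective (Algebra.linearMap (D.A R' i) (D.A01 R'))
      (D.resR_injective R' i)).symm.toLinearMap ∘ₗ
      (((χ' j).restrictScalars (D.A R' i)) ∘ₗ (L'.L i).subtype).codRestrict _ (hmem j)
  have hφ : ∀ j (x : L'.L i), χ' j x = algebraMap (D.A R' i) (D.A01 R') (φc' j x) := fun j x => by
    simp only [φc', LinearMap.comp_apply, LinearEquiv.coe_coe]
    exact (congrArg Subtype.val ((LinearEquiv.ofInjective (Algebra.linearMap (D.A R' i) (D.A01 R'))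
      (D.resR_injective R' i)).apply_symm_apply ⟨χ' j x, hmem j x⟩)).symm
  refine ⟨n, χ, φc, y, χ', φc', hχ, hχ', hφ, fun j x => D.resR_injective R' i ?_, hsum, fun m => ?_⟩
  · rw [← hφ, hχ', hχ, CurveData.mapA01_res]
  · have : (∑ j, (χ' j).smulRight (g.f (y j))) = LinearMap.id := g.linearMap_ext fun m => by
      simp only [LinearMap.coe_sum, Finset.sum_apply, LinearMap.smulRight_apply, hχ', ← g.map_smul,
        ← map_sum, hsumM, LinearMap.id_apply]
    simpa using LinearMap.congr_fun this m

/-- Semilinear maps over the test algebras extend to the lattices of the base change. -/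
theorem exists_baseLift (i : Fin 2) {T : Type u} [AddCommGroup T] [Module R' T] (h : L.L i →+ T)
    (hh : ∀ (r : R) (l : L.L i), h (r • l) = φ r • h l) :
    ∃ H : L'.L i →ₗ[R'] T, ∀ l : L.L i, H ⟨g.f l, g.map_mem l.2⟩ = h l := by
  obtain ⟨n, -, φc, y, -, φc', -, -, -, hmap, hsum, -⟩ := g.exists_dual_basis_chart i
  let : Module k T := Module.compHom T (algebraMap k R')
  have : IsScalarTower k R' T := .of_algebraMap_smul fun _ _ => rfl
  let κ (j : Fin n) : D.A R' i →ₗ[R'] T := LinearMap.liftBaseChange R'
    { toFun := fun b => h (((1 : R) ⊗ₜ[k] b : D.A R i) • y j)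
      map_add' := fun b c => by rw [tmul_add, add_smul, map_add]
      map_smul' := fun c b => by
        rw [tmul_smul, RingHom.id_apply, ← algebraMap_smul R c ((1 : R) ⊗ₜ[k] b), smul_assoc, hh,
          φ.commutes, algebraMap_smul] }
  refine ⟨∑ j, κ j ∘ₗ (φc' j).restrictScalars R', fun l => ?_⟩
  have hκ : ∀ j (a : D.A R i), κ j (D.mapA φ i a) = h (a • y j) := fun j a => by
    induction a using TensorProduct.induction_on with
    | zero => simp
    | tmul r b =>
      change φ r • h (((1 : R) ⊗ₜ[k] b : D.A R i) • y j) = h ((r ⊗ₜ[k] b : D.A R i) • y j)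
      rw [← hh, ← smul_assoc, smul_tmul', smul_eq_mul, mul_one]
    | add a b ha hb => simp [add_smul, ha, hb]
  simp only [LinearMap.coe_sum, Finset.sum_apply, LinearMap.comp_apply,
    LinearMap.restrictScalars_apply, hmap, hκ, ← map_sum, hsum]

/-- Over the test algebra, the lattices of the target are spanned by those of the source. -/
theorem coe_span_base (i : Fin 2) (T : Set L.M) (hT : ∀ (a : D.A R i), ∀ m ∈ T, a • m ∈ T) :
    (Submodule.span (D.A R' i) (g.f '' T) : Set L'.M) = Submodule.span R' (g.f '' T) := by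
  refine subset_antisymm (fun x hx => ?_) (Submodule.span_subset_span R' (D.A R' i) _)
  induction hx using Submodule.span_induction with
  | mem y hy => exact Submodule.subset_span hy
  | zero => exact zero_mem _
  | add y z _ _ hy hz => exact add_mem hy hz
  | smul a y hy0 hy =>
    clear hy0
    induction hy using Submodule.span_induction with
    | mem z hz =>
      obtain ⟨m, hm, rfl⟩ := hz
      have ha := CurveData.mem_span_range_mapA φ i a
      induction ha using Submodule.span_induction with
      | mem b hb =>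
        obtain ⟨c, rfl⟩ := hb
        rw [← g.f_smul_chart]
        exact Submodule.subset_span ⟨_, hT c m hm, rfl⟩
      | zero => rw [zero_smul]; exact zero_mem _
      | add b c _ _ hb hc => rw [add_smul]; exact add_mem hb hc
      | smul r b _ hb => rw [smul_assoc]; exact Submodule.smul_mem _ r hb
    | zero => rw [smul_zero]; exact zero_mem _
    | add z w _ _ hz hw => rw [smul_add]; exact add_mem hz hw
    | smul r z _ hz => rw [smul_comm]; exact Submodule.smul_mem _ r hz

end Mor

/-! ### Conditions preserved -/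

/-- Triviality along the rational point passes to base changes. -/
theorem EvTrivial.map {φ : R →ₐ[k] R'} {L : LB D R} {L' : LB D R'} (g : Mor φ L L')
    (h : L.EvTrivial) :
    L'.EvTrivial := by
  obtain ⟨ψ, hψ, hsurj⟩ := h
  obtain ⟨n, -, φc, y, -, φc', -, -, -, hmap, hsum, -⟩ := g.exists_dual_basis_chart 0
  let ψ' : L'.L 0 →+ R' :=
    { toFun := fun x => ∑ j : Fin n, D.evR R' (φc' j x) * φ (ψ (y j))
      map_zero' := by simp
      map_add' := fun a b => by simp [add_mul, Finset.sum_add_distrib] }
  have hg : ∀ l : L.L 0, ψ' ⟨g.f l, g.map_mem l.2⟩ = φ (ψ l) := fun l => by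
    change ∑ j, D.evR R' (φc' j _) * φ (ψ (y j)) = _
    simp only [hmap, CurveData.evR_mapA, ← map_mul, ← map_sum, ← hψ, hsum]
  have hlin : ∀ (a : D.A R' 0) m, ψ' (a • m) = D.evR R' a * ψ' m := fun a m => by
    change ∑ j : Fin n, D.evR R' (φc' j (a • m)) * φ (ψ (y j)) = D.evR R' a * ∑ j : Fin n,
        D.evR R' (φc' j m) * φ (ψ (y j))
    simp [Finset.mul_sum, mul_assoc]
  refine ⟨ψ', hlin, fun r => ?_⟩
  obtain ⟨l, hl⟩ := hsurj 1
  exact ⟨algebraMap R' (D.A R' 0) r • ⟨g.f l, g.map_mem l.2⟩, by
    rw [hlin, hg, hl, map_one, mul_one, AlgHom.commutes, Algebra.algebraMap_self_apply]⟩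

/-- Triviality along the rational point is invariant under isomorphism. -/
theorem EvTrivial.congr {L L' : LB D R} (e : L.Isomorphic L') (h : L.EvTrivial) : L'.EvTrivial :=
  h.map ((Mor.id L).transIso e.some)

/-- Fibrewise degree zero passes to base changes. -/
theorem FibreDegZero.map {φ : R →ₐ[k] R'} {L : LB D R} {L' : LB D R'} (g : Mor φ L L')
    (h : L.FibreDegZero) :
    L'.FibreDegZero := fun K _ _ _ _ L'' g' => h K _ L'' (g.comp g')

end LB

end Fermat.Agent.Jac

end
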