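import Fermat.Agent.Jac.Ops.Sub

/-!
# Twisting down at points
-/

set_option autoImplicit false

universe u

noncomputable section

open TensorProduct

namespace Fermat.Agent.Jac

variable {k : Type u} [Field k] {D : CurveData k}
variable {R R' : Type u} [CommRing R] [Algebra k R] [CommRing R'] [Algebra k R']

namespace LB

/-- The sections of chart `i` vanishing at a point. -/
def pointLattice (N : LB D R) (i : Fin 2) (σ : D.A R i →ₐ[R] R) : Submodule (D.A R i) N.M :=
  RingHom.ker σ • N.L i

/-- The sections vanishing at a point lie in the lattice. -/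
theorem pointLattice_le_lattice (N : LB D R) (i : Fin 2) (σ : D.A R i →ₐ[R] R) :
    N.pointLattice i σ ≤ N.L i :=
  Submodule.smul_le.mpr fun a _ _ hm => (N.L i).smul_mem a hm

/-- The sections vanishing at a point form a sublattice. -/
theorem isSubLattice_point (N : LB D R) (i : Fin 2) (σ : D.A R i →ₐ[R] R) :
    N.IsSubLattice i (N.pointLattice i σ) := by
  classical
  obtain ⟨n, φc, y, hy⟩ := exists_dual_basis (D.A R i) (N.L i)
  set S := N.pointLattice i σ
  let Q := (N.L i) ⧸ S.comap (N.L i).subtype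
  let q : N.L i →ₗ[R] Q := IsSubLattice.quot N i S
  let ρ₀ : N.L i →ₗ[R] Fin n → R := LinearMap.pi fun j => σ.toLinearMap ∘ₗ (φc j).restrictScalars R
  have hker : ∀ m, m ∈ S → ∃ hm : m ∈ N.L i, ρ₀ ⟨m, hm⟩ = 0 := fun m hm => by
    refine Submodule.smul_induction_on hm (fun a ha x hx => ⟨(N.L i).smul_mem a hx,
      funext fun j => ?_⟩)
      (fun x z ⟨hx, hx0⟩ ⟨hz, hz0⟩ => ⟨add_mem hx hz, ?_⟩)
    · change σ (φc j (a • (⟨x, hx⟩ : N.L i))) = 0
      rw [map_smul, smul_eq_mul, map_mul, (RingHom.mem_ker.mp ha : σ a = 0), zero_mul]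
    · rw [show (⟨x + z, add_mem hx hz⟩ : N.L i) = ⟨x, hx⟩ + ⟨z, hz⟩ from rfl, map_add, hx0, hz0,
        add_zero]
  let ρ : Q →ₗ[R] Fin n → R :=
    Submodule.liftQ ((S.comap (N.L i).subtype).restrictScalars R) ρ₀ (fun x hx => by
    obtain ⟨_, h0⟩ := hker x.1 hx
    exact h0) ∘ₗ (Submodule.Quotient.restrictScalarsEquiv R
      (S.comap (N.L i).subtype)).symm.toLinearMap
  let E : (Fin n → R) →ₗ[R] Q := Fintype.linearCombination R fun j => q (y j)
  have hEρ : E ∘ₗ ρ = LinearMap.id := by
    refine LinearMap.ext fun z => ?_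
    obtain ⟨x, rfl⟩ := IsSubLattice.quot_surjective z
    change Fintype.linearCombination R (fun j => q (y j)) (ρ₀ x) = q x
    rw [Fintype.linearCombination_apply]
    conv_rhs => rw [← hy x, map_sum]
    refine Finset.sum_congr rfl fun j _ => ?_
    rw [← map_smul, ← sub_eq_zero, ← map_sub, IsSubLattice.quot_eq_zero_iff,
      ← algebraMap_smul (D.A R i) (ρ₀ x j) (y j), ← sub_smul]
    refine Submodule.smul_mem_smul ?_ (y j).2
    rw [RingHom.mem_ker, map_sub, AlgHom.commutes, Algebra.algebraMap_self_apply]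
    exact sub_self _
  refine ⟨N.pointLattice_le_lattice i σ, Module.Finite.of_surjective E fun z => ⟨ρ z,
    LinearMap.congr_fun hEρ z⟩, Module.Projective.of_split ρ E hEρ⟩

/-- The bundle `N(-P)`. -/
def subPoint (N : LB D R) (P : (i : Fin 2) × (D.A R i →ₐ[R] R)) : LB D R :=
  N.subBundle P.1 (N.pointLattice P.1 P.2) (N.isSubLattice_point P.1 P.2)

/-- The bundle `N(-P₁-⋯-Pₘ)`. -/
def subPoints (N : LB D R) (l : List ((i : Fin 2) × (D.A R i →ₐ[R] R))) : LB D R :=
  l.foldl subPoint N

/-- The base change of a section. -/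
def pointBC (φ : R →ₐ[k] R') {i : Fin 2} (σ : D.A R i →ₐ[R] R) : D.A R' i →ₐ[R'] R' :=
  Algebra.TensorProduct.lift (AlgHom.id R' R')
    (φ.comp ((σ.restrictScalars k).comp Algebra.TensorProduct.includeRight)) fun _ _ => mul_comm _ _

/-- The base change of a point. -/
def mapPoint (φ : R →ₐ[k] R') (P : (i : Fin 2) × (D.A R i →ₐ[R] R)) :
    (i : Fin 2) × (D.A R' i →ₐ[R'] R') :=
  ⟨P.1, pointBC φ P.2⟩

theorem pointBC_mapA (φ : R →ₐ[k] R') {i : Fin 2} (σ : D.A R i →ₐ[R] R) (a : D.A R i) :
    pointBC φ σ (D.mapA φ i a) = φ (σ a) := by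
  induction a using TensorProduct.induction_on with
  | zero => rw [map_zero, map_zero, map_zero, map_zero]
  | tmul r b =>
    change φ r * φ (σ ((1 : R) ⊗ₜ b)) = φ (σ (r ⊗ₜ b))
    rw [← map_mul, ← smul_eq_mul, ← map_smul, smul_tmul', smul_eq_mul, mul_one]
  | add x y hx hy => rw [map_add, map_add, hx, hy, map_add, map_add]

theorem pointBC_id {i : Fin 2} (σ : D.A R i →ₐ[R] R) : pointBC (AlgHom.id k R) σ = σ := by
  ext a
  change (1 : R) * σ ((1 : R) ⊗ₜ a) = σ ((1 : R) ⊗ₜ a)
  rw [one_mul]

theorem mapPoint_id (P : (i : Fin 2) × (D.A R i →ₐ[R] R)) : mapPoint (AlgHom.id k R) P = P :=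
  Sigma.ext rfl (heq_of_eq (pointBC_id P.2))

section

variable {φ : R →ₐ[k] R'} {N : LB D R} {N' : LB D R'}

/-- The sections vanishing at a point commute with base change. -/
theorem Mor.span_pointLattice (g : Mor φ N N') (i : Fin 2) (σ : D.A R i →ₐ[R] R) :
    Submodule.span (D.A R' i) (g.f '' (N.pointLattice i σ : Set N.M)) =
      N'.pointLattice i (pointBC φ σ) := by
  set σ' := pointBC φ σ
  refine le_antisymm (Submodule.span_le.mpr ?_) (Submodule.smul_le.mpr fun c hc x hx => ?_)
  -- Functions vanishing at `σ` map to functions vanishing at the image point.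
  · rintro _ ⟨m, hm, rfl⟩
    refine Submodule.smul_induction_on hm (fun a ha x hx => ?_) (fun x z hx hz => ?_)
    · rw [g.f_smul_chart]
      refine Submodule.smul_mem_smul ?_ (g.map_mem hx)
      rw [RingHom.mem_ker]
      exact (pointBC_mapA φ σ a).trans (by rw [(RingHom.mem_ker.mp ha : σ a = 0), _root_.map_zero])
    · rw [_root_.map_add]; exact add_mem hx hz
  · set W := Submodule.span (D.A R' i) (g.f '' (N.pointLattice i σ : Set N.M))
    -- Conversely those vanishing at the image point form the extended ideal of the kernel of `σ`.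
    have hker : ∀ a : D.A R' i,
        a - algebraMap R' (D.A R' i) (σ' a) ∈ (RingHom.ker σ).map (D.mapA φ i) := fun a => by
      have ha := CurveData.mem_span_range_mapA φ i a
      induction ha using Submodule.span_induction with
      | mem b hb =>
        obtain ⟨b, rfl⟩ := hb
        rw [pointBC_mapA, ← CurveData.mapA_algebraMap, ← map_sub]
        refine Ideal.mem_map_of_mem _ ?_
        rw [RingHom.mem_ker, map_sub, AlgHom.commutes, Algebra.algebraMap_self_apply, sub_self]
      | zero => simp
      | add b b' _ _ hb hb' =>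
        rw [_root_.map_add, _root_.map_add, add_sub_add_comm]
        exact add_mem hb hb'
      | smul r b _ hb =>
        rw [_root_.map_smul, smul_eq_mul, _root_.map_mul, ← Algebra.smul_def, ← smul_sub]
        exact Submodule.smul_of_tower_mem _ r hb
    have hc' : c ∈ (RingHom.ker σ).map (D.mapA φ i) := by
      have := hker c
      rwa [(RingHom.mem_ker.mp hc : σ' c = 0), _root_.map_zero, sub_zero] at this
    rw [← g.span_map i] at hx
    clear hc
    induction hx using Submodule.span_induction with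
    | mem z hz =>
      obtain ⟨m, hm, rfl⟩ := hz
      rw [Ideal.map] at hc'
      induction hc' using Submodule.span_induction with
      | mem d hd =>
        obtain ⟨a, ha, rfl⟩ := hd
        rw [← g.f_smul_chart]
        exact Submodule.subset_span ⟨_, Submodule.smul_mem_smul ha hm, rfl⟩
      | zero => rw [zero_smul]; exact zero_mem _
      | add d d' _ _ hd hd' => rw [add_smul]; exact add_mem hd hd'
      | smul a d _ hd => rw [smul_assoc]; exact W.smul_mem a hd
    | zero => rw [smul_zero]; exact zero_mem _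
    | add z w _ _ hz hw => rw [smul_add]; exact add_mem hz hw
    | smul a z _ hz => rw [smul_comm]; exact W.smul_mem a hz

/-- Transport of the target along an equality of sublattices. -/
def Mor.castSub {X : LB D R} {i : Fin 2} {S₁ S₂ : Submodule (D.A R' i) N'.M} (hS : S₁ = S₂)
    {h₁ : N'.IsSubLattice i S₁} {h₂ : N'.IsSubLattice i S₂} (g : Mor φ X (N'.subBundle i S₁ h₁)) :
    Mor φ X (N'.subBundle i S₂ h₂) := by
  subst hS
  exact g

/-- A point twist commutes with base change. -/
def Mor.subPoint (g : Mor φ N N') (P : (i : Fin 2) × (D.A R i →ₐ[R] R)) :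
    Mor φ (N.subPoint P) (N'.subPoint (mapPoint φ P)) :=
  Mor.castSub (g.span_pointLattice P.1 P.2) (g.sub (N.isSubLattice_point P.1 P.2))

/-- Point twists commute with base change. -/
def Mor.subPoints {N : LB D R} {N' : LB D R'} (g : Mor φ N N') :
    (l : List ((i : Fin 2) × (D.A R i →ₐ[R] R))) →
      Mor φ (N.subPoints l) (N'.subPoints (l.map (mapPoint φ)))
  | [] => g
  | P :: l => Mor.subPoints (g.subPoint P) l

/-- Twisting down at points preserves isomorphy. -/
theorem isomorphic_subPoints {N N' : LB D R} (e : N.Isomorphic N')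
    (l : List ((i : Fin 2) × (D.A R i →ₐ[R] R))) : (N.subPoints l).Isomorphic (N'.subPoints l) := by
  have hl : l.map (mapPoint (AlgHom.id k R)) = l := List.map_id'' mapPoint_id l
  let g₁ := (Mor.id N).subPoints l
  let g₂ := ((Mor.id N).transIso e.some).subPoints l
  have h := (⟨g₁.targetIso g₂⟩ : (N.subPoints (l.map (mapPoint (AlgHom.id k R)))).Isomorphic
    (N'.subPoints (l.map (mapPoint (AlgHom.id k R)))))
  rwa [hl] at h

end

end LB

end Fermat.Agent.Jac

end
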