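import Fermat.Agent.Jac.Ops.SubGen

/-!
# Sub-bundles

A sublattice in one chart with finite projective quotient extends to a sub-bundle, saturated in the
other chart. -/

set_option autoImplicit false

universe u

noncomputable section

open TensorProduct

namespace Fermat.Agent.Jac

variable {k : Type u} [Field k] {D : CurveData k}
variable {R R' : Type u} [CommRing R] [Algebra k R] [CommRing R'] [Algebra k R']

namespace LB

namespace IsSubLattice

variable {N : LB D R} {i : Fin 2} {S : Submodule (D.A R i) N.M} (h : N.IsSubLattice i S)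

include h

theorem invertible_span :
    Module.Invertible (D.A01 R) ↥(Submodule.span (D.A01 R) (S : Set N.M)) := by
  refine invertible_of_local_generators fun p => ?_
  obtain ⟨g, hg, f, hgen, hann⟩ := h.exists_generator
    (PrimeSpectrum.comap (algebraMap (D.A R i) (D.A01 R)) p)
  refine ⟨algebraMap (D.A R i) (D.A01 R) g, hg, ⟨f.1, Submodule.subset_span f.2⟩, fun x => ?_,
    fun a ha => ?_⟩
  · obtain ⟨m, hm⟩ := CurveData.exists_pow_smul_mem_of_mem_span x.2
    obtain ⟨n, hn⟩ := hgen ⟨_, hm⟩
    obtain ⟨a, ha⟩ := Submodule.mem_span_singleton.mp hn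
    refine ⟨n, Submodule.mem_span_singleton.mpr ⟨D.tInv R i ^ m * algebraMap (D.A R i) (D.A01 R) a,
      Subtype.ext ?_⟩⟩
    change (D.tInv R i ^ m * algebraMap (D.A R i) (D.A01 R) a) • (f : N.M) =
      algebraMap (D.A R i) (D.A01 R) g ^ n • (x : N.M)
    have ha' : a • (f : N.M) = g ^ n • D.tR R i ^ m • (x : N.M) := congrArg Subtype.val ha
    rw [mul_smul, algebraMap_smul, ha', smul_comm (g ^ n),
      ← algebraMap_smul (D.A01 R) (D.tR R i ^ m), map_pow,
      smul_smul, ← mul_pow, CurveData.tInv_mul, one_pow, one_smul,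
      ← algebraMap_smul (D.A01 R) (g ^ n), map_pow]
  · obtain ⟨m, b, hb⟩ := CurveData.exists_pow_mul_eq i a
    have hbf : b • f = 0 := by
      apply Subtype.ext
      change b • (f : N.M) = 0
      have ha' : a • (f : N.M) = 0 := congrArg Subtype.val ha
      rw [← algebraMap_smul (D.A01 R) b, ← hb, mul_smul, ha', smul_zero]
    obtain ⟨n, hn⟩ := hann b hbf
    refine ⟨n, ?_⟩
    have h1 := congrArg (algebraMap (D.A R i) (D.A01 R)) hn
    rw [map_mul, map_zero, ← hb, map_pow, mul_left_comm] at h1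
    exact ((CurveData.isUnit_tR i).pow m).mul_right_eq_zero.mp h1

/-- In the other chart the saturation contains `g` times the lattice for some `g ≡ 1` modulo the
coordinate. -/
theorem exists_smul_mem_span {j : Fin 2} (hj : j ≠ i) : ∃ q : D.A R j, ∀ x ∈ N.L j,
    (1 + D.tR R j * q) • x ∈ Submodule.span (D.A01 R) (S : Set N.M) := by
  have := h.finite
  let E : Module.End R ((N.L i) ⧸ S.comap (N.L i).subtype) :=
    Algebra.lsmul R R ((N.L i) ⧸ S.comap (N.L i).subtype) (D.tR R i)
  obtain ⟨p, hp, hp0⟩ := LinearMap.exists_monic_and_aeval_eq_zero R E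
  have hkill : ∀ y ∈ N.L i, Polynomial.aeval (D.tR R i) p • y ∈ S := fun y hy => by
    rw [Polynomial.aeval_algHom_apply] at hp0
    have h1 : Polynomial.aeval (D.tR R i) p •
        (Submodule.Quotient.mk ⟨y, hy⟩ : (N.L i) ⧸ S.comap (N.L i).subtype) = 0 :=
      LinearMap.congr_fun hp0 (Submodule.Quotient.mk ⟨y, hy⟩)
    rw [← Submodule.Quotient.mk_smul, Submodule.Quotient.mk_eq_zero] at h1
    exact h1
  let gj : D.A R j := Polynomial.aeval (D.tR R j) p.reverse
  obtain ⟨q, hq⟩ : ∃ q, gj = 1 + D.tR R j * q := by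
    refine ⟨Polynomial.aeval (D.tR R j) p.reverse.divX, ?_⟩
    conv_lhs => rw [show gj = Polynomial.aeval (D.tR R j) p.reverse from rfl,
      ← p.reverse.X_mul_divX_add]
    rw [map_add, map_mul, Polynomial.aeval_X, Polynomial.aeval_C, Polynomial.coeff_zero_reverse, hp,
      map_one, add_comm]
  refine ⟨q, fun x hx => ?_⟩
  rw [← hq]
  obtain ⟨n, hn⟩ := N.exists_pow_smul_mem i x
  have h1 : algebraMap (D.A R i) (D.A01 R) (Polynomial.aeval (D.tR R i) p) • x ∈
      Submodule.span (D.A01 R) (S : Set N.M) := by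
    rw [algebraMap_smul]
    refine CurveData.mem_span_of_pow_smul_mem (i := i) (n := n) ?_
    rw [SetLike.mem_coe, smul_comm]
    exact hkill _ hn
  let u := algebraMap (D.A R i) (D.A01 R) (D.tR R i)
  let v := algebraMap (D.A R j) (D.A01 R) (D.tR R j)
  have huv : u * v = 1 := CurveData.algebraMap_tR_mul' hj
  let _ : Invertible u := ⟨v, by rw [mul_comm]; exact huv, huv⟩
  have hrev : algebraMap (D.A R j) (D.A01 R) gj =
      v ^ p.natDegree * algebraMap (D.A R i) (D.A01 R) (Polynomial.aeval (D.tR R i) p) := by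
    rw [← Polynomial.aeval_algebraMap_apply, ← Polynomial.aeval_algebraMap_apply]
    have h2 : Polynomial.aeval v p.reverse * u ^ p.natDegree = Polynomial.aeval u p :=
      Polynomial.eval₂_reverse_mul_pow (algebraMap R (D.A01 R)) u p
    rw [← h2, mul_left_comm, ← mul_pow, mul_comm v u, huv, one_pow, mul_one]
  rw [← algebraMap_smul (D.A01 R) gj x, hrev, mul_smul]
  exact Submodule.smul_mem _ _ h1

theorem invertible_other {j : Fin 2} (hj : j ≠ i) :
    Module.Invertible (D.A R j)
      ↥((N.L j) ⊓ (Submodule.span (D.A01 R) (S : Set N.M)).restrictScalars (D.A R j)) := by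
  have := h.invertible_span
  obtain ⟨q, hq⟩ := h.exists_smul_mem_span hj
  refine invertible_of_local_generators fun P => ?_
  by_cases ht : D.tR R j ∈ P.asIdeal
  -- Where `t` vanishes `1 + t q` is invertible, and there the lattice is that of `N`.
  · obtain ⟨χ, f, hχf, hχ⟩ := exists_local_functional (D.A R j) (N.L j) P
    let gj := 1 + D.tR R j * q
    have hg : gj ∉ P.asIdeal := fun hm => P.isPrime.ne_top ((Ideal.eq_top_iff_one _).mpr
      ((Submodule.add_mem_iff_left _ (Ideal.mul_mem_right q _ ht)).mp hm))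
    refine ⟨χ f * gj, fun hm => (P.isPrime.mem_or_mem hm).elim hχf hg,
      ⟨gj • (f : N.M), (N.L j).smul_mem _ f.2, hq _ f.2⟩, fun x => ⟨1, ?_⟩, fun a ha => ⟨1, ?_⟩⟩
    · rw [pow_one, Submodule.mem_span_singleton]
      refine ⟨χ ⟨x.1, x.2.1⟩, Subtype.ext ?_⟩
      change χ ⟨x.1, x.2.1⟩ • gj • (f : N.M) = (χ f * gj) • (x : N.M)
      rw [smul_comm, mul_comm, mul_smul]
      exact congrArg (gj • ·) (congrArg Subtype.val (hχ ⟨x.1, x.2.1⟩)).symm
    · have ha' : (a * gj) • f = 0 :=
        Subtype.ext ((mul_smul a gj (f : N.M)).trans (congrArg Subtype.val ha))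
      have := congrArg χ ha'
      rw [map_smul, map_zero, smul_eq_mul] at this
      linear_combination this
  -- Elsewhere use a local generator of the span on the overlap, cleared by powers of `t`.
  · let M := Submonoid.powers (D.tR R j)
    have hdisj : Disjoint (M : Set (D.A R j)) (P.asIdeal : Set (D.A R j)) :=
      Set.disjoint_left.mpr fun x ⟨n, hn⟩ hx => ht (P.isPrime.mem_of_pow_mem n ((show D.tR R j ^ n =
          x from hn).symm ▸ hx))
    let p : PrimeSpectrum (D.A01 R) := ⟨P.asIdeal.map (algebraMap _ _),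
      IsLocalization.isPrime_of_isPrime_disjoint M (D.A01 R) P.asIdeal P.isPrime hdisj⟩
    have hp : Ideal.comap (algebraMap (D.A R j) (D.A01 R)) p.asIdeal = P.asIdeal :=
      IsLocalization.under_map_of_isPrime_disjoint M (D.A01 R) P.isPrime hdisj
    obtain ⟨χ, f, hχf, hχ⟩ :=
      exists_local_functional (D.A01 R) ↥(Submodule.span (D.A01 R) (S : Set N.M)) p
    obtain ⟨n, b, hb⟩ := CurveData.exists_pow_mul_eq j (χ f)
    have hbP : b ∉ P.asIdeal := fun hm => hχf <| by
      have h1 : algebraMap (D.A R j) (D.A01 R) b ∈ p.asIdeal := Ideal.mem_map_of_mem _ hm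
      rw [← hb] at h1
      exact (p.isPrime.mem_or_mem h1).resolve_left fun hu =>
        p.isPrime.ne_top (Ideal.eq_top_of_isUnit_mem _ hu ((CurveData.isUnit_tR j).pow n))
    obtain ⟨m, hm⟩ := N.exists_pow_smul_mem j (f : N.M)
    let f' : ↥((N.L j) ⊓ (Submodule.span (D.A01 R) (S : Set N.M)).restrictScalars (D.A R j)) :=
      ⟨D.tR R j ^ m • (f : N.M), hm, Submodule.smul_of_tower_mem _ _ f.2⟩
    refine ⟨D.tR R j * b, fun hmem => (P.isPrime.mem_or_mem hmem).elim ht hbP, f', fun x => ?_,
      fun a ha => ?_⟩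
    · obtain ⟨l, c, hc⟩ := CurveData.exists_pow_mul_eq j (χ ⟨x.1, x.2.2⟩)
      refine ⟨l + m + 1, Submodule.mem_span_singleton.mpr
        ⟨D.tR R j * b ^ (l + m) * D.tR R j ^ n * c, Subtype.ext ?_⟩⟩
      change (D.tR R j * b ^ (l + m) * D.tR R j ^ n * c) • D.tR R j ^ m • (f : N.M) =
        (D.tR R j * b) ^ (l + m + 1) • (x : N.M)
      have h1 : χ f • (x : N.M) = χ ⟨x.1, x.2.2⟩ • (f : N.M) :=
        congrArg Subtype.val (hχ ⟨x.1, x.2.2⟩)
      rw [smul_smul, ← algebraMap_smul (D.A01 R) _ (f : N.M),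
        ← algebraMap_smul (D.A01 R) _ (x : N.M)]
      simp only [map_mul, map_pow, ← hb, ← hc]
      have h2 := congrArg (((algebraMap (D.A R j) (D.A01 R) (D.tR R j)) ^ (n + l + m + 1) *
        ((algebraMap (D.A R j) (D.A01 R) (D.tR R j)) ^ n * χ f) ^ (l + m)) • ·) h1
      simp only [smul_smul] at h2
      refine Eq.trans ?_ (h2.symm.trans ?_) <;> congr 1 <;> ring
    · have ha' : (a * D.tR R j ^ m) • (f : N.M) = 0 :=
        (mul_smul a _ (f : N.M)).trans (congrArg Subtype.val ha)
      have h1 : algebraMap (D.A R j) (D.A01 R) (a * D.tR R j ^ m) • f = 0 := Subtype.ext (by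
        change algebraMap (D.A R j) (D.A01 R) (a * D.tR R j ^ m) • (f : N.M) = 0
        rw [algebraMap_smul, ha'])
      have h2 := congrArg χ h1
      rw [map_smul, map_zero, smul_eq_mul] at h2
      have h3 : algebraMap (D.A R j) (D.A01 R) (a * D.tR R j ^ m * b) = 0 := by
        rw [map_mul _ _ b, ← hb, mul_left_comm, h2, mul_zero]
      have h4 := (D.resR_injective R j) (h3.trans (map_zero _).symm)
      exact ⟨m + 1, by linear_combination (D.tR R j * b ^ m) * h4⟩

end IsSubLattice

/-- The sub-bundle which is `S` in chart `i` and saturated in the other chart. -/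
def subBundle (N : LB D R) (i : Fin 2) (S : Submodule (D.A R i) N.M) (h : N.IsSubLattice i S) :
    LB D R where
  M := ↥(Submodule.span (D.A01 R) (S : Set N.M))
  invertible := h.invertible_span
  L j :=
    { carrier := {m | m.1 ∈ N.L j ∧ (j = i → m.1 ∈ S)}
      add_mem' := fun ha hb => ⟨add_mem ha.1 hb.1, fun e => add_mem (ha.2 e) (hb.2 e)⟩
      zero_mem' := ⟨zero_mem _, fun _ => zero_mem _⟩
      smul_mem' := fun a m hm => ⟨(N.L j).smul_mem a hm.1, fun e => by
        subst e
        exact S.smul_mem a (hm.2 rfl)⟩ }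
  invertible_L j := by
    by_cases hj : j = i
    · subst hj
      have := h.invertible_sublattice
      exact Module.Invertible.congr (R := D.A R j) (M := S)
        { toFun := fun x => ⟨⟨x.1, Submodule.subset_span x.2⟩, h.le x.2, fun _ => x.2⟩
          invFun := fun x => ⟨x.1.1, x.2.2 rfl⟩
          map_add' := fun _ _ => rfl
          map_smul' := fun _ _ => rfl
          left_inv := fun _ => rfl
          right_inv := fun _ => rfl }
    · have := h.invertible_other hj
      exact Module.Invertible.congr (R := D.A R j)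
        (M := ↥((N.L j) ⊓ (Submodule.span (D.A01 R) (S : Set N.M)).restrictScalars (D.A R j)))
        { toFun := fun x => ⟨⟨x.1, x.2.2⟩, x.2.1, fun e => absurd e hj⟩
          invFun := fun x => ⟨x.1.1, x.2.1, x.1.2⟩
          map_add' := fun _ _ => rfl
          map_smul' := fun _ _ => rfl
          left_inv := fun _ => rfl
          right_inv := fun _ => rfl }
  span_L j := CurveData.span_eq_top_of_pow_smul_mem (i := j) fun m => by
    by_cases hj : j = i
    · subst hj
      obtain ⟨n, hn⟩ := CurveData.exists_pow_smul_mem_of_mem_span m.2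
      exact ⟨n, h.le hn, fun _ => hn⟩
    · obtain ⟨n, hn⟩ := N.exists_pow_smul_mem j m.1
      exact ⟨n, hn, fun e => absurd e hj⟩

/-- The inclusion of a sub-bundle, as a section of the homomorphism bundle. -/
def subIncl (N : LB D R) {i : Fin 2} {S : Submodule (D.A R i) N.M} (h : N.IsSubLattice i S) :
    ((N.subBundle i S h).hom N).M :=
  (Submodule.span (D.A01 R) (S : Set N.M)).subtype

/-- The inclusion of a sub-bundle is a global homomorphism. -/
theorem subIncl_mem (N : LB D R) {i : Fin 2} {S : Submodule (D.A R i) N.M}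
    (h : N.IsSubLattice i S) :
    N.subIncl h ∈ ((N.subBundle i S h).hom N).H0 :=
  ⟨fun _ hm => hm.1, fun _ hm => hm.1⟩

section

variable {φ : R →ₐ[k] R'} {N : LB D R} {N' : LB D R'} (g : Mor φ N N') {i : Fin 2}
  {S : Submodule (D.A R i) N.M}

theorem Mor.map_mem_span {x : N.M} (hx : x ∈ Submodule.span (D.A01 R) (S : Set N.M)) :
    g.f x ∈ Submodule.span (D.A01 R') (Submodule.span (D.A R' i) (g.f '' (S : Set N.M)) :
      Set N'.M) := by
  induction hx using Submodule.span_induction with
  | mem y hy => exact Submodule.subset_span (Submodule.subset_span ⟨y, hy, rfl⟩)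
  | zero => rw [_root_.map_zero]; exact zero_mem _
  | add y z _ _ hy hz => rw [_root_.map_add]; exact add_mem hy hz
  | smul a y _ hy => rw [g.map_smul]; exact Submodule.smul_mem _ _ hy

theorem Mor.mem_span_sub (h : N.IsSubLattice i S) {j : Fin 2} {x : N'.M} (hxj : x ∈ N'.L j)
    (hxs : x ∈ Submodule.span (D.A01 R') (Submodule.span (D.A R' i) (g.f '' (S : Set N.M)) :
      Set N'.M))
    (hxi : j = i → x ∈ Submodule.span (D.A R' j) (g.f '' (S : Set N.M))) :
    x ∈ Submodule.span (D.A R' j)
      (g.f '' {m : N.M | m ∈ N.L j ∧ m ∈ Submodule.span (D.A01 R) (S : Set N.M) ∧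
        (j = i → m ∈ S)}) := by
  by_cases hj : j = i
  · subst hj
    exact Submodule.span_mono
      (Set.image_mono (s := (S : Set N.M))
        (t := {m : N.M | m ∈ N.L j ∧ m ∈ Submodule.span (D.A01 R) (S : Set N.M) ∧ (j = j → m ∈ S)})
        fun m hm => ⟨h.le hm, Submodule.subset_span hm, fun _ => hm⟩) (hxi rfl)
  obtain ⟨q, hq⟩ := h.exists_smul_mem_span hj
  set W := Submodule.span (D.A R' j)
    (g.f '' {m : N.M | m ∈ N.L j ∧ m ∈ Submodule.span (D.A01 R) (S : Set N.M) ∧ (j = i → m ∈ S)})
  rw [Submodule.span_span_of_tower] at hxs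
  -- A power of `t` moves `x` into the span `W`.
  obtain ⟨n, hn⟩ : ∃ n : ℕ, D.tR R' j ^ n • x ∈ W := by
    clear hxj hxi
    induction hxs using Submodule.span_induction with
    | mem y hy =>
      obtain ⟨s, hs, rfl⟩ := hy
      obtain ⟨n, hn⟩ := N.exists_pow_smul_mem j s
      refine ⟨n, ?_⟩
      rw [← CurveData.mapA_coord φ j, ← map_pow, ← g.f_smul_chart]
      exact Submodule.subset_span ⟨_, ⟨hn,
        Submodule.smul_of_tower_mem _ _ (Submodule.subset_span hs),
        fun e => absurd e hj⟩, rfl⟩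
    | zero => exact ⟨0, by rw [smul_zero]; exact zero_mem _⟩
    | add y z _ _ hy hz =>
      obtain ⟨a, ha⟩ := hy
      obtain ⟨b, hb⟩ := hz
      refine ⟨a + b, ?_⟩
      rw [smul_add]
      refine add_mem ?_ ?_
      · rw [add_comm, pow_add, mul_smul]; exact W.smul_mem _ ha
      · rw [pow_add, mul_smul]; exact W.smul_mem _ hb
    | smul a y _ hy =>
      obtain ⟨n, hn⟩ := hy
      obtain ⟨l, b, hb⟩ := CurveData.exists_pow_mul_eq j a
      refine ⟨l + n, ?_⟩
      have hh : D.tR R' j ^ (l + n) • a • y = b • D.tR R' j ^ n • y := by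
        rw [smul_smul b, mul_comm b, pow_add, mul_comm, mul_smul, mul_smul,
          ← algebraMap_smul (D.A01 R') (D.tR R' j ^ l) (a • y), smul_smul, map_pow, hb,
          algebraMap_smul]
      exact hh ▸ W.smul_mem b hn
  -- So does `1 + t q`, and the two are coprime.
  let gj := 1 + D.tR R' j * D.mapA φ j q
  have hg : gj • x ∈ W := by
    rw [← g.span_map j] at hxj
    clear hxs hxi hn
    induction hxj using Submodule.span_induction with
    | mem y hy =>
      obtain ⟨m, hm, rfl⟩ := hy
      have : gj = D.mapA φ j (1 + D.tR R j * q) := by simp [gj]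
      rw [this, ← g.f_smul_chart]
      exact Submodule.subset_span ⟨_, ⟨(N.L j).smul_mem _ hm, hq m hm, fun e => absurd e hj⟩, rfl⟩
    | zero => rw [smul_zero]; exact zero_mem _
    | add y z _ _ hy hz => rw [smul_add]; exact add_mem hy hz
    | smul a y _ hy => rw [smul_comm]; exact W.smul_mem a hy
  obtain ⟨a, b, hab⟩ : IsCoprime gj (D.tR R' j ^ n) :=
    IsCoprime.pow_right ⟨1, -D.mapA φ j q, by simp [gj]; ring⟩
  rw [← one_smul (D.A R' j) x, ← hab, add_smul, mul_smul, mul_smul]
  exact add_mem (W.smul_mem a hg) (W.smul_mem b hn)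

/-- Sub-bundles commute with base change. -/
def Mor.sub (h : N.IsSubLattice i S) : Mor φ (N.subBundle i S h) (N'.subBundle i _ (h.map g)) where
  f :=
    { toFun := fun x => ⟨g.f x.1, g.map_mem_span x.2⟩
      map_zero' := Subtype.ext (_root_.map_zero g.f)
      map_add' := fun x y => Subtype.ext (_root_.map_add g.f x.1 y.1) }
  map_smul a m := Subtype.ext (g.map_smul a m.1)
  span_map j := by
    refine le_antisymm (Submodule.span_le.mpr ?_) fun x hx => ?_
    · rintro _ ⟨m, hm, rfl⟩
      refine ⟨g.map_mem hm.1, fun e => ?_⟩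
      subst e
      exact Submodule.subset_span ⟨m.1, hm.2 rfl, rfl⟩
    · have h1 := g.mem_span_sub h hx.1 x.2 fun e => by subst e; exact hx.2 rfl
      obtain ⟨y, hy, hyx⟩ : x.1 ∈ Submodule.map
          ((Submodule.span (D.A01 R') (Submodule.span (D.A R' i) (g.f '' (S : Set N.M)) :
            Set N'.M)).subtype.restrictScalars (D.A R' j))
          (Submodule.span (D.A R' j) ((fun m : ↥(Submodule.span (D.A01 R) (S : Set N.M)) =>
            (⟨g.f m.1, g.map_mem_span m.2⟩ : ↥(Submodule.span (D.A01 R')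
              (Submodule.span (D.A R' i) (g.f '' (S : Set N.M)) : Set N'.M)))) ''
            {m | m.1 ∈ N.L j ∧ (j = i → m.1 ∈ S)})) := by
        rw [Submodule.map_span, ← Set.image_comp]
        refine Submodule.span_mono ?_ h1
        rintro _ ⟨m, ⟨hm1, hm2, hm3⟩, rfl⟩
        exact ⟨⟨m, hm2⟩, ⟨hm1, hm3⟩, rfl⟩
      exact (Subtype.ext hyx : y = x) ▸ hy

end

end LB

end Fermat.Agent.Jac

end
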