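import Fermat.Agent.Jac.Ops.Hom

/-!
# Sublattices with finite projective quotient

Such a sublattice is compatible with base change and is invertible: on every geometric fibre it is a
nonzero submodule of an invertible module over a Dedekind domain.

These are `IsSubLattice.map` and `IsSubLattice.invertible_sublattice`.
-/

set_option autoImplicit false

universe u

noncomputable section

open TensorProduct

namespace Fermat.Agent.Jac

variable {k : Type u} [Field k] {D : CurveData k}
variable {R R' : Type u} [CommRing R] [Algebra k R] [CommRing R'] [Algebra k R']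

/-! ### Preliminaries -/

/-- Every ideal of a Dedekind domain is locally principal. -/
theorem exists_local_generator_ideal {A : Type u} [CommRing A] [IsDedekindDomain A] (J : Ideal A)
    (hJ : J ≠ ⊥) (q : Ideal A) [q.IsPrime] : ∃ a ∈ J, a ≠ 0 ∧ ∃ h : A, h ∉ q ∧ ∀ x ∈ J, ∃ c,
      h * x = c * a := by
  obtain ⟨c, hc, hc0⟩ := Submodule.exists_mem_ne_zero_of_ne_bot hJ
  obtain ⟨J', hJ'⟩ := Ideal.dvd_iff_le.mpr ((Ideal.span_singleton_le_iff_mem J).mpr hc)
  obtain ⟨a, ha, b, hb, hab⟩ : ∃ a ∈ J, ∃ b ∈ J', ∃ h : A, h ∉ q ∧ a * b = c * h := by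
    by_contra! hall
    have hle : J * J' ≤ Ideal.span {c} * q := by
      refine Ideal.mul_le.mpr fun a ha b hb => ?_
      obtain ⟨h, hh⟩ := Ideal.mem_span_singleton'.mp (hJ' ▸ Ideal.mul_mem_mul ha hb : a * b ∈
        Ideal.span {c})
      have hhq : h ∈ q := by
        by_contra hq
        exact hall a ha b hb h hq (by rw [← hh, mul_comm])
      exact Ideal.mem_span_singleton_mul.mpr ⟨h, hhq, by rw [← hh, mul_comm]⟩
    obtain ⟨d, hd, hcd⟩ :=
      Ideal.mem_span_singleton_mul.mp (hle (hJ' ▸ Ideal.mem_span_singleton_self c))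
    exact Ideal.IsPrime.ne_top ‹_› ((Ideal.eq_top_iff_one q).mpr
      (by rwa [mul_eq_left₀ hc0 |>.mp hcd] at hd))
  obtain ⟨h, hh, hab⟩ := hab
  refine ⟨a, ha, fun h0 => ?_, h, hh, fun x hx => ?_⟩
  · rw [h0, zero_mul, eq_comm, mul_eq_zero] at hab
    exact hab.elim hc0 fun h1 => hh (h1 ▸ q.zero_mem)
  · obtain ⟨e, he⟩ := Ideal.mem_span_singleton'.mp (hJ' ▸ Ideal.mul_mem_mul hx hb : x * b ∈
      Ideal.span {c})
    exact ⟨e, mul_left_cancel₀ hc0 (by linear_combination (-x) * hab - a * he)⟩

/-- The coordinates of the image of a tensor under a change of the test algebra. -/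
theorem repr_map_baseChange {B : Type u} [CommRing B] [Algebra k B] {ι : Type u}
    (b : Module.Basis ι k B) (φ : R →ₐ[k] R') (x : R ⊗[k] B) (j : ι) :
    (b.baseChange R').repr (Algebra.TensorProduct.map φ (AlgHom.id k B) x) j =
      φ ((b.baseChange R).repr x j) := by
  induction x using TensorProduct.induction_on with
  | zero => simp
  | tmul c y => simp [Algebra.smul_def]
  | add x y hx hy => simp [hx, hy]

/-- Multiplication by an element with a nonzero coordinate `r` is injective after inverting `r`. -/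
theorem exists_pow_smul_eq_zero_of_mul_eq_zero {B : Type u} [CommRing B] [Algebra k B]
    (hB : ∀ (K : Type u) [Field K] [Algebra k K], IsDomain (K ⊗[k] B)) {ι : Type u}
    (b : Module.Basis ι k B) (a₀ : R ⊗[k] B) (l : ι) (a : R ⊗[k] B) (ha : a * a₀ = 0) :
    ∃ n : ℕ, (b.baseChange R).repr a₀ l ^ n • a = 0 := by
  classical
  let r := (b.baseChange R).repr a₀ l
  let Rr := Localization.Away r
  let ψ : R →ₐ[k] Rr := IsScalarTower.toAlgHom k R Rr
  let mp : R ⊗[k] B →ₐ[k] Rr ⊗[k] B := Algebra.TensorProduct.map ψ (AlgHom.id k B)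
  have hrepr := repr_map_baseChange b ψ
  -- Multiplication by `a₀` is injective on every fibre over `R[1/r]`, hence on the whole.
  have hinj : Function.Injective (LinearMap.mulLeft Rr (mp a₀)) := by
    have := Module.Projective.of_basis (b.baseChange Rr)
    refine injective_of_fibres _ fun p => ?_
    let κ := p.asIdeal.ResidueField
    let e : κ ⊗[Rr] (Rr ⊗[k] B) ≃ₐ[κ] κ ⊗[k] B := Algebra.TensorProduct.cancelBaseChange k Rr κ κ B
    have := hB κ
    have key : ∀ z, e ((LinearMap.mulLeft Rr (mp a₀)).baseChange κ z) = e (1 ⊗ₜ mp a₀) * e z := by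
      intro z
      induction z using TensorProduct.induction_on with
      | zero => rw [map_zero, map_zero, mul_zero]
      | tmul c y =>
        rw [← map_mul]
        simp [Algebra.TensorProduct.tmul_mul_tmul]
      | add x y hx hy => rw [map_add, map_add, hx, hy, map_add, mul_add]
    have hcoord : ∀ z : Rr ⊗[k] B, ∀ j, (b.baseChange κ).repr (e (1 ⊗ₜ z)) j =
        algebraMap Rr κ ((b.baseChange Rr).repr z j) := by
      intro z j
      induction z using TensorProduct.induction_on with
      | zero => simp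
      | tmul c y => simp [e, Algebra.smul_def, ← IsScalarTower.algebraMap_apply]
      | add x y hx hy => simp [tmul_add, hx, hy]
    have hne : e (1 ⊗ₜ mp a₀) ≠ 0 := fun h0 => by
      have h1 := hcoord (mp a₀) l
      rw [h0, map_zero, Finsupp.zero_apply, hrepr] at h1
      exact ((IsLocalization.Away.algebraMap_isUnit (S := Rr) r).map
        (algebraMap Rr κ)).ne_zero h1.symm
    intro x y hxy
    have := congrArg e hxy
    rw [key, key] at this
    exact e.injective (mul_left_cancel₀ hne this)
  have h0 : mp a = 0 := hinj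
    (by rw [LinearMap.mulLeft_apply, LinearMap.mulLeft_apply, mul_zero, ← map_mul,
    mul_comm a₀, ha, map_zero])
  -- So a power of `r` kills each coordinate of `a`.
  have hj : ∀ j, ∃ n : ℕ, r ^ n * (b.baseChange R).repr a j = 0 := fun j => by
    have h1 := hrepr a j
    rw [h0, map_zero, Finsupp.zero_apply] at h1
    obtain ⟨⟨_, n, rfl⟩, hn⟩ :=
      (IsLocalization.map_eq_zero_iff (Submonoid.powers r) Rr _).mp h1.symm
    exact ⟨n, hn⟩
  choose n hn using hj
  refine ⟨((b.baseChange R).repr a).support.sup n, (b.baseChange R).repr.injective ?_⟩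
  ext j
  rw [map_smul, map_zero, Finsupp.smul_apply, Finsupp.zero_apply, smul_eq_mul]
  by_cases hj : j ∈ ((b.baseChange R).repr a).support
  · obtain ⟨d, hd⟩ := Nat.exists_eq_add_of_le (Finset.le_sup (f := n) hj)
    rw [hd, pow_add, mul_comm (_ ^ n j), mul_assoc, hn, mul_zero]
  · rw [Finsupp.notMem_support_iff.mp hj, mul_zero]

namespace LB

/-! ### Sublattices and their base change -/

/-- A sublattice with finite projective quotient over the base. -/
structure IsSubLattice (N : LB D R) (i : Fin 2) (S : Submodule (D.A R i) N.M) : Prop where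
  le : S ≤ N.L i
  finite : Module.Finite R ((N.L i) ⧸ S.comap (N.L i).subtype)
  projective : Module.Projective R ((N.L i) ⧸ S.comap (N.L i).subtype)

namespace IsSubLattice

variable {N : LB D R} {i : Fin 2} {S : Submodule (D.A R i) N.M} (h : N.IsSubLattice i S)

/-- The quotient map over the base. -/
def quot (N : LB D R) (i : Fin 2) (S : Submodule (D.A R i) N.M) :
    N.L i →ₗ[R] (N.L i) ⧸ S.comap (N.L i).subtype :=
  (S.comap (N.L i).subtype).mkQ.restrictScalars R

theorem quot_surjective : Function.Surjective (quot N i S) :=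
  fun q => Submodule.Quotient.mk_surjective _ q

theorem quot_eq_zero_iff (x : N.L i) : quot N i S x = 0 ↔ (x : N.M) ∈ S :=
  Submodule.Quotient.mk_eq_zero _

include h

theorem exists_section : ∃ s : (N.L i) ⧸ S.comap (N.L i).subtype →ₗ[R] N.L i, ∀ q,
    quot N i S (s q) = q := by
  have := h.projective
  obtain ⟨s, hs⟩ := Module.projective_lifting_property (quot N i S) LinearMap.id quot_surjective
  exact ⟨s, LinearMap.congr_fun hs⟩

/-- The splitting given by a section. -/
theorem exists_splitting :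
    ∃ (e : N.L i →ₗ[R] S) (s : (N.L i) ⧸ S.comap (N.L i).subtype →ₗ[R] N.L i),
    (∀ q, quot N i S (s q) = q) ∧ ∀ x : N.L i, (e x : N.M) + s (quot N i S x) = x := by
  obtain ⟨s, hs⟩ := h.exists_section
  refine ⟨((N.L i).subtype.restrictScalars R ∘ₗ (LinearMap.id - s ∘ₗ quot N i S)).codRestrict
    (S.restrictScalars R) (fun x => (quot_eq_zero_iff _).mp (by simp [hs])), s, hs, fun x => ?_⟩
  change ((x - s (quot N i S x) : N.L i) : N.M) + _ = _
  simp

theorem exists_projection : ∃ e : N.L i →ₗ[R] S, ∀ (x : N.L i) (hx : (x : N.M) ∈ S),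
    e x = ⟨x, hx⟩ := by
  obtain ⟨e, s, -, he⟩ := h.exists_splitting
  refine ⟨e, fun x hx => Subtype.ext ?_⟩
  have := he x
  rw [(quot_eq_zero_iff x).mpr hx, map_zero] at this
  simpa using this

/-- The image of a sublattice spans a sublattice of the base change. -/
theorem map {φ : R →ₐ[k] R'} {N' : LB D R'} (g : Mor φ N N') :
    N'.IsSubLattice i (Submodule.span (D.A R' i) (g.f '' (S : Set N.M))) := by
  let S' := Submodule.span (D.A R' i) (g.f '' (S : Set N.M))
  have hle : S' ≤ N'.L i := Submodule.span_le.mpr fun x ⟨m, hm, hx⟩ => hx ▸ g.map_mem (h.le hm)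
  let _ : Algebra R R' := φ.toRingHom.toAlgebra
  let Q := (N.L i) ⧸ S.comap (N.L i).subtype
  let T := R' ⊗[R] Q
  -- `H` extends the base change of the quotient map to the lattice of `N'`; it kills the span `S'`.
  obtain ⟨H, hH⟩ := g.exists_baseLift i (T := T)
    ((TensorProduct.mk R R' Q 1).toAddMonoidHom.comp (quot N i S).toAddMonoidHom) fun r l => by
      change (1 : R') ⊗ₜ[R] quot N i S (r • l) = φ r • ((1 : R') ⊗ₜ[R] quot N i S l)
      rw [map_smul, tmul_smul]
      exact (algebraMap_smul R' r _).symm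
  have hkill : Submodule.span R' (g.f '' (S : Set N.M)) ≤
      (LinearMap.ker H).map ((N'.L i).subtype.restrictScalars R') := Submodule.span_le.mpr <| by
    rintro _ ⟨m, hm, rfl⟩
    refine ⟨⟨g.f m, g.map_mem (h.le hm)⟩, (hH ⟨m, h.le hm⟩).trans ?_, rfl⟩
    change (1 : R') ⊗ₜ[R] quot N i S ⟨m, h.le hm⟩ = 0
    rw [(quot_eq_zero_iff _).mpr hm, tmul_zero]
  let Hbar : ((N'.L i) ⧸ S'.comap (N'.L i).subtype) →ₗ[R'] T :=
    Submodule.liftQ ((S'.comap (N'.L i).subtype).restrictScalars R') H (fun x hx => by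
      obtain ⟨y, hy, hyx⟩ := hkill (x := x.1)
        (by rw [← SetLike.mem_coe, ← g.coe_span_base i _ fun a m hm => S.smul_mem a hm]; exact hx)
      rwa [Subtype.ext hyx] at hy)
      ∘ₗ (Submodule.Quotient.restrictScalarsEquiv R' (S'.comap (N'.L i).subtype)).symm.toLinearMap
  have hHbar : ∀ x : N'.L i, Hbar (Submodule.Quotient.mk x) = H x := fun x => rfl
  let _ : Module R (N'.L i) := Module.compHom _ φ.toRingHom
  let _ : Module R ((N'.L i) ⧸ S'.comap (N'.L i).subtype) := Module.compHom _ φ.toRingHom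
  have : IsScalarTower R R' ((N'.L i) ⧸ S'.comap (N'.L i).subtype) :=
    .of_algebraMap_smul fun _ _ => rfl
  -- `G` is induced by `g`; it is inverse to `Hbar` as the images of `g` span.
  let G0 : N.L i →ₗ[R] (N'.L i) ⧸ S'.comap (N'.L i).subtype :=
    { toFun := fun l => Submodule.Quotient.mk ⟨g.f l, g.map_mem l.2⟩
      map_add' := fun a b => by
        rw [← Submodule.Quotient.mk_add]
        exact congrArg _ (Subtype.ext (map_add g.f _ _))
      map_smul' := fun r a => by
        refine Eq.trans ?_ (Submodule.Quotient.mk_smul _ (φ r) (⟨g.f a, g.map_mem a.2⟩ : N'.L i))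
        exact congrArg _ (Subtype.ext (g.f_smul_base r a)) }
  let G : T →ₗ[R'] (N'.L i) ⧸ S'.comap (N'.L i).subtype := LinearMap.liftBaseChange R'
    (Submodule.liftQ ((S.comap (N.L i).subtype).restrictScalars R) G0 (fun l hl => by
      refine (Submodule.Quotient.mk_eq_zero _).mpr ?_
      exact Submodule.subset_span ⟨l, hl, rfl⟩) ∘ₗ
      (Submodule.Quotient.restrictScalarsEquiv R (S.comap (N.L i).subtype)).symm.toLinearMap)
  have hG : ∀ l : N.L i,
      G (1 ⊗ₜ[R] quot N i S l) = Submodule.Quotient.mk ⟨g.f l, g.map_mem l.2⟩ := fun l =>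
    (LinearMap.liftBaseChange_tmul (A := R') _ 1 _).trans (one_smul _ _)
  have h1 : Hbar ∘ₗ G = LinearMap.id := by
    refine TensorProduct.AlgebraTensorModule.ext fun r q => ?_
    obtain ⟨l, rfl⟩ := quot_surjective q
    rw [show (r ⊗ₜ[R] quot N i S l : T) = r • ((1 : R') ⊗ₜ[R] quot N i S l) by
      rw [smul_tmul', smul_eq_mul, mul_one],
      map_smul, map_smul, LinearMap.comp_apply, hG, hHbar, hH]
    rfl
  have h2 : G ∘ₗ Hbar = LinearMap.id := by
    refine LinearMap.ext fun q => ?_
    obtain ⟨⟨x, hx⟩, rfl⟩ := Submodule.Quotient.mk_surjective _ q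
    change G (H ⟨x, hx⟩) = Submodule.Quotient.mk ⟨x, hx⟩
    have hx' : x ∈ Submodule.span R' (g.f '' (N.L i : Set N.M)) := by
      rw [← SetLike.mem_coe, ← g.coe_span_base i _ fun a m hm => (N.L i).smul_mem a hm, g.span_map]
      exact hx
    have hsp : Submodule.span R' (g.f '' (N.L i : Set N.M)) ≤
        (LinearMap.eqLocus (G ∘ₗ H) ((S'.comap (N'.L i).subtype).mkQ.restrictScalars R')).map
          ((N'.L i).subtype.restrictScalars R') := Submodule.span_le.mpr <| by
      rintro _ ⟨m, hm, rfl⟩
      exact ⟨⟨g.f m, g.map_mem hm⟩, (congrArg G (hH ⟨m, hm⟩)).trans (hG ⟨m, hm⟩), rfl⟩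
    obtain ⟨y, hy, hyx⟩ := hsp hx'
    obtain rfl : y = ⟨x, hx⟩ := Subtype.ext hyx
    exact hy
  -- The quotient upstairs is the base change of the one downstairs, so finite projective.
  let E : T ≃ₗ[R'] (N'.L i) ⧸ S'.comap (N'.L i).subtype := LinearEquiv.ofLinearMap G Hbar h2 h1
  have := h.finite
  have := h.projective
  exact ⟨hle, Module.Finite.equiv E, Module.Projective.of_equiv E⟩

/-! ### Finiteness and the fibres -/

theorem finite_sublattice : Module.Finite (D.A R i) S := by
  classical
  obtain ⟨e, s, hs, he⟩ := h.exists_splitting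
  have := h.finite
  have := D.finiteType i
  obtain ⟨G, hG⟩ := (inferInstance : Algebra.FiniteType R (D.A R i)).out
  obtain ⟨n, y, hy⟩ := Module.Finite.exists_fin (R := D.A R i) (M := N.L i)
  obtain ⟨m, q, hq⟩ := Module.Finite.exists_fin (R := R) (M := (N.L i) ⧸ S.comap (N.L i).subtype)
  -- Generators: projections of generators of the lattice and of algebra times quotient generators.
  let Y : Set S := Set.range (fun j => e (y j)) ∪
    (fun p : D.A R i × Fin m => e (p.1 • s (q p.2))) '' ((G : Set (D.A R i)) ×ˢ Set.univ)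
  let T₀ : Submodule (D.A R i) S := Submodule.span (D.A R i) Y
  suffices T₀ = ⊤ from ⟨this ▸ Submodule.fg_span ((Set.finite_range _).union
    ((G.finite_toSet.prod Set.finite_univ).image _))⟩
  -- With the section of the quotient they give a stable subspace containing every generator.
  let T : Submodule R (N.L i) :=
    (T₀.map (Submodule.inclusion h.le)).restrictScalars R ⊔ LinearMap.range s
  have hsplit : ∀ x : N.L i, e x ∈ T₀ → x ∈ T := fun x hx =>
    Submodule.mem_sup.mpr ⟨Submodule.inclusion h.le (e x), ⟨e x, hx, rfl⟩, s (quot N i S x),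
      ⟨_, rfl⟩, Subtype.ext (he x)⟩
  have hgen : ∀ a ∈ (G : Set (D.A R i)), ∀ q', a • s q' ∈ T := fun a ha q' => by
    have hq' : q' ∈ Submodule.span R (Set.range q) := hq ▸ Submodule.mem_top
    induction hq' using Submodule.span_induction with
    | mem z hz =>
      obtain ⟨j, rfl⟩ := hz
      exact hsplit _ (Submodule.subset_span (Or.inr ⟨(a, j), ⟨ha, Set.mem_univ _⟩, rfl⟩))
    | zero => rw [map_zero, smul_zero]; exact zero_mem _
    | add z w _ _ hz hw => rw [map_add, smul_add]; exact add_mem hz hw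
    | smul r z _ hz => rw [map_smul, smul_comm]; exact T.smul_mem r hz
  have hstable : ∀ a : D.A R i, ∀ x ∈ T, a • x ∈ T := fun a => by
    have ha : a ∈ Algebra.adjoin R (G : Set (D.A R i)) := hG ▸ Algebra.mem_top
    induction ha using Algebra.adjoin_induction with
    | mem a ha =>
      intro x hx
      obtain ⟨_, ⟨t, ht, rfl⟩, _, ⟨q', rfl⟩, rfl⟩ := Submodule.mem_sup.mp hx
      rw [smul_add]
      refine add_mem (Submodule.mem_sup_left ?_) (hgen a ha q')
      exact ((T₀.map (Submodule.inclusion h.le)).smul_mem a ⟨t, ht, rfl⟩ : _)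
    | algebraMap r => intro x hx; rw [algebraMap_smul]; exact T.smul_mem r hx
    | add a b _ _ ha hb => intro x hx; rw [add_smul]; exact add_mem (ha x hx) (hb x hx)
    | mul a b _ _ ha hb => intro x hx; rw [mul_smul]; exact ha _ (hb x hx)
  have htop : ∀ x : N.L i, x ∈ T := fun x => by
    have hx : x ∈ Submodule.span (D.A R i) (Set.range y) := hy ▸ Submodule.mem_top
    induction hx using Submodule.span_induction with
    | mem z hz =>
      obtain ⟨j, rfl⟩ := hz
      exact hsplit _ (Submodule.subset_span (Or.inl ⟨j, rfl⟩))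
    | zero => exact zero_mem _
    | add z w _ _ hz hw => exact add_mem hz hw
    | smul a z _ hz => exact hstable a z hz
  refine eq_top_iff.mpr fun t _ => ?_
  obtain ⟨_, ⟨t₀, ht₀, rfl⟩, _, ⟨q', rfl⟩, htq⟩ :=
    Submodule.mem_sup.mp (htop (Submodule.inclusion h.le t))
  have hq0 : q' = 0 := by
    have := congrArg (quot N i S) htq
    rwa [map_add, hs, (quot_eq_zero_iff _).mpr t₀.2, (quot_eq_zero_iff _).mpr t.2, zero_add] at this
  rw [hq0, map_zero, add_zero] at htq
  exact Submodule.inclusion_injective h.le htq ▸ ht₀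

omit h in
/-- On an invertible module over a domain a functional `χ` with `χ(f₀) • x = χ(x) • f₀` and
`χ(f₀) ≠ 0` has zero kernel. -/
theorem eq_zero_of_functional {A : Type u} [CommRing A] [IsDomain A] {P : Type u} [AddCommGroup P]
    [Module A P] [Module.Invertible A P] {χ : P →ₗ[A] A} {f₀ : P} (hχ : ∀ x, χ f₀ • x = χ x • f₀)
    (h0 : χ f₀ ≠ 0) {x : P} (hx : χ x = 0) : x = 0 := by
  obtain ⟨n, φc, y, hy⟩ := exists_dual_basis A P
  have h1 : χ f₀ • x = 0 := by rw [hχ, hx, zero_smul]
  have h2 : ∀ j, φc j x = 0 := fun j => by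
    have := congrArg (φc j) h1
    rw [map_smul, map_zero, smul_eq_mul, mul_eq_zero] at this
    exact this.resolve_left h0
  rw [← hy x]
  simp [h2]

omit h in
theorem not_finite_chart (K : Type u) [Field K] [Algebra k K] (i : Fin 2) :
    ¬ Module.Finite K (D.A K i) := by
  intro hA
  let b := Module.Free.chooseBasis k (D.B i)
  have : _root_.Finite (Module.Free.ChooseBasisIndex k (D.B i)) :=
    Module.Finite.finite_basis (b.baseChange K)
  have := Module.Finite.of_basis b
  exact Polynomial.not_finite (R := k) (Module.Finite.of_injective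
    (Polynomial.aeval (R := k) (D.t i)).toLinearMap (D.aeval_t_injective i))

/-- A relation between images of two elements of the sublattice in a geometric fibre holds between
the elements at the point. -/
private theorem tmul_rel_of_rel {K : Type u} [Field K] [Algebra k K] {φ : R →ₐ[k] K}
    {N' : LB D K} (g : Mor φ N N') [Algebra (D.A R i) K] (ev : D.A K i →ₐ[K] K)
    (hev : ∀ a, ev (D.mapA φ i a) = algebraMap (D.A R i) K a)
    (hφ : ∀ r, algebraMap (D.A R i) K (algebraMap R (D.A R i) r) = φ r) {a b : D.A K i} {s f : S}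
    (heq : a • g.f (s : N.M) = b • g.f (f : N.M)) :
    ev a • ((1 : K) ⊗ₜ[D.A R i] s) = ev b • ((1 : K) ⊗ₜ[D.A R i] f) := by
  classical
  have := h.finite_sublattice
  obtain ⟨e, he⟩ := h.exists_projection
  obtain ⟨H, hH⟩ := g.exists_baseLift i (T := K ⊗[D.A R i] S)
    ((TensorProduct.mk (D.A R i) K S 1).toAddMonoidHom.comp e.toAddMonoidHom) fun r l => by
      change (1 : K) ⊗ₜ[D.A R i] e (r • l) = φ r • ((1 : K) ⊗ₜ[D.A R i] e l)
      rw [map_smul, ← algebraMap_smul (D.A R i) r (e l), tmul_smul,
        ← algebraMap_smul K (algebraMap R (D.A R i) r), hφ]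
  let gS : S → N'.L i := fun s => ⟨g.f s.1, g.map_mem (h.le s.2)⟩
  have hHS : ∀ s : S, H (gS s) = (1 : K) ⊗ₜ[D.A R i] s := fun s => by
    refine (hH ⟨s.1, h.le s.2⟩).trans ?_
    change (1 : K) ⊗ₜ[D.A R i] e _ = _
    rw [he ⟨s.1, h.le s.2⟩ s.2]
  have hHlin :
      ∀ (a : D.A K i) (s : S), H (a • gS s) = ev a • ((1 : K) ⊗ₜ[D.A R i] s) := fun a s => by
    have ha := CurveData.mem_span_range_mapA φ i a
    induction ha using Submodule.span_induction with
    | mem x hx =>
      obtain ⟨b, rfl⟩ := hx
      have hb : D.mapA φ i b • gS s = gS (b • s) := Subtype.ext (g.f_smul_chart b s.1).symm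
      rw [hb, hHS, hev, tmul_smul]
      exact (algebraMap_smul K b _).symm
    | zero => simp
    | add x y _ _ hx hy => rw [add_smul, map_add, map_add, hx, hy, add_smul]
    | smul r x _ hx => rw [smul_assoc, LinearMap.map_smul, hx, map_smul, smul_assoc]
  rw [← hHlin, ← hHlin]
  exact congrArg H (Subtype.ext heq)

/-- On a geometric fibre the sublattice is generated at a rational point by one of its
elements. -/
theorem exists_generator_fibre {K : Type u} [Field K] [IsAlgClosed K] [Algebra k K] {φ : R →ₐ[k] K}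
    {N' : LB D K} (g : Mor φ N N') [Algebra (D.A R i) K] (ev : D.A K i →ₐ[K] K)
    (hev : ∀ a, ev (D.mapA φ i a) = algebraMap (D.A R i) K a)
    (hφ : ∀ r, algebraMap (D.A R i) K (algebraMap R (D.A R i) r) = φ r) :
    ∃ f : S, g.f f ≠ 0 ∧ ∀ s : S, ∃ v : K, (1 : K) ⊗ₜ[D.A R i] s = v • ((1 : K) ⊗ₜ[D.A R i] f) := by
  classical
  have := h.finite_sublattice
  have hdom : IsDomain (D.A K i) := D.isDomain K i
  have hded : IsDedekindDomain (D.A K i) := D.isDedekind K i
  let P' : PrimeSpectrum (D.A K i) := ⟨RingHom.ker ev, RingHom.ker_isPrime ev⟩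
  let S' := Submodule.span (D.A K i) (g.f '' (S : Set N.M))
  have hS' := h.map g
  -- Near the point the lattice of the fibre is `f₀`, and the sublattice is `J f₀`, with `J ≠ 0` as
  -- the quotient is finite and the chart is not.
  obtain ⟨χ, f₀, hχf, hχ⟩ := exists_local_functional (D.A K i) (N'.L i) P'
  have hχ0 : χ f₀ ≠ 0 := fun h0 => hχf (h0 ▸ P'.asIdeal.zero_mem)
  let J : Ideal (D.A K i) :=
    { carrier := {a | a • (f₀ : N'.M) ∈ S'}
      add_mem' := fun {a b} ha hb =>
        show (a + b) • (f₀ : N'.M) ∈ S' from (add_smul a b (f₀ : N'.M)).symm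
          ▸ add_mem ha hb
      zero_mem' := show (0 : D.A K i) • (f₀ : N'.M) ∈ S' by rw [zero_smul]; exact zero_mem _
      smul_mem' := fun c a ha =>
        show (c * a) • (f₀ : N'.M) ∈ S' from (mul_smul c a (f₀ : N'.M)).symm ▸
          S'.smul_mem c ha }
  have hχM : ∀ x : N'.L i, χ x • (f₀ : N'.M) = χ f₀ • (x : N'.M) := fun x =>
    (congrArg Subtype.val (hχ x)).symm
  have hJmem : ∀ x : N'.L i, (x : N'.M) ∈ S' → χ x ∈ J := fun x hx => by
    change χ x • (f₀ : N'.M) ∈ S'
    rw [hχM]
    exact S'.smul_mem _ hx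
  have hJ : J ≠ ⊥ := fun hJ => by
    have hbot : S'.comap (N'.L i).subtype = ⊥ := eq_bot_iff.mpr fun x hx =>
      eq_zero_of_functional hχ hχ0 (by simpa [hJ] using hJmem x hx)
    have hfin : Module.Finite K (N'.L i) := by
      have := hS'.finite
      exact Module.Finite.of_injective ((S'.comap (N'.L i).subtype).mkQ.restrictScalars K) (by
        rw [LinearMap.coe_restrictScalars, ← LinearMap.ker_eq_bot, Submodule.ker_mkQ, hbot])
    have hinj : Function.Injective (fun a : D.A K i => a • f₀) := fun a b hab => by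
      have := congrArg χ hab
      simp only [map_smul, smul_eq_mul] at this
      exact mul_right_cancel₀ hχ0 this
    exact not_finite_chart K i (Module.Finite.of_injective
      ((LinearMap.toSpanSingleton (D.A K i) (N'.L i) f₀).restrictScalars K) hinj)
  have := P'.isPrime
  -- The chart being Dedekind, `J` is generated by some `a₀` near the point, so `S'` by `f'`.
  obtain ⟨a₀, ha₀, ha₀0, u, hu, hJgen⟩ := exists_local_generator_ideal J hJ P'.asIdeal
  let f' : N'.M := a₀ • (f₀ : N'.M)
  let w := u * χ f₀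
  have hw : w ∉ P'.asIdeal := fun hw => (P'.isPrime.mem_or_mem hw).elim hu hχf
  have hgen : ∀ x ∈ S', ∃ c, w • x = c • f' := fun x hx => by
    obtain ⟨c, hc⟩ := hJgen _ (hJmem ⟨x, hS'.le hx⟩ hx)
    refine ⟨c, ?_⟩
    rw [mul_smul, ← hχM ⟨x, hS'.le hx⟩, smul_smul, hc, mul_smul]
  have hf'0 : ∀ d : D.A K i, d • f' = 0 → d = 0 := fun d hd => by
    have h1 : (d * a₀) • f₀ = 0 := Subtype.ext ((mul_smul d a₀ (f₀ : N'.M)).trans hd)
    have h2 := congrArg χ h1
    rw [map_smul, map_zero, smul_eq_mul, mul_eq_zero, mul_eq_zero] at h2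
    exact (h2.resolve_right hχ0).resolve_right ha₀0
  choose c hc using fun s : S => hgen (g.f s) (Submodule.subset_span ⟨s.1, s.2, rfl⟩)
  -- The images of the elements of `S` span `S'`, so one of them is a unit multiple of `f'`.
  obtain ⟨f, hf⟩ : ∃ s, c s ∉ P'.asIdeal := by
    by_contra! hall
    have hall' : ∀ x ∈ S', ∃ d ∈ P'.asIdeal, w • x = d • f' := fun x hx => by
      induction hx using Submodule.span_induction with
      | mem y hy =>
        obtain ⟨m, hm, rfl⟩ := hy
        exact ⟨_, hall ⟨m, hm⟩, hc ⟨m, hm⟩⟩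
      | zero => exact ⟨0, zero_mem _, by rw [zero_smul, smul_zero]⟩
      | add y z _ _ hy hz =>
        obtain ⟨d, hd, hyd⟩ := hy
        obtain ⟨d', hd', hzd⟩ := hz
        exact ⟨d + d', add_mem hd hd', by rw [add_smul, ← hyd, ← hzd, smul_add]⟩
      | smul r y _ hy =>
        obtain ⟨d, hd, hyd⟩ := hy
        exact ⟨r * d, Ideal.mul_mem_left _ _ hd, by rw [mul_smul r d, ← hyd, smul_comm r]⟩
    obtain ⟨d, hd, hfd⟩ := hall' f' ha₀
    exact hw (by rw [sub_eq_zero.mp (hf'0 (w - d) (by rw [sub_smul, hfd, sub_self]))]; exact hd)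
  refine ⟨f, fun h0 => hf ?_, fun s => ?_⟩
  · rw [hf'0 (c f) (by rw [← hc f, h0, smul_zero])]
    exact zero_mem _
  have h1 : ev (c f * w) • ((1 : K) ⊗ₜ[D.A R i] s) = ev (c s * w) • ((1 : K) ⊗ₜ[D.A R i] f) :=
    h.tmul_rel_of_rel g ev hev hφ (by rw [mul_smul, hc, mul_smul, hc, smul_comm])
  have hne : ev (c f * w) ≠ 0 := by
    rw [map_mul]
    exact mul_ne_zero hf hw
  exact ⟨(ev (c f * w))⁻¹ * ev (c s * w), by rw [mul_smul, ← h1, inv_smul_smul₀ hne]⟩

omit h in
/-- A geometric fibre generated by one element gives a generator near the point. -/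
theorem exists_smul_mem_span_of_fibre {A : Type u} [CommRing A] {M : Type u} [AddCommGroup M]
    [Module A M] [Module.Finite A M] (P : PrimeSpectrum A) (K : Type u) [Field K]
    [Algebra P.asIdeal.ResidueField K] [Algebra A K]
    [IsScalarTower A P.asIdeal.ResidueField K] (f : M)
    (hspan : ∀ s : M, ∃ v : K, (1 : K) ⊗ₜ[A] s = v • ((1 : K) ⊗ₜ[A] f)) :
    ∃ u ∉ P.asIdeal, ∀ s : M, u • s ∈ Submodule.span A {f} := by
  let κ := P.asIdeal.ResidueField
  let Q₀ := M ⧸ Submodule.span A {f}
  have hK : ∀ z : K ⊗[A] Q₀, z = 0 := fun z => by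
    induction z using TensorProduct.induction_on with
    | zero => rfl
    | tmul v q =>
      obtain ⟨s, rfl⟩ := Submodule.mkQ_surjective _ q
      obtain ⟨w, hw⟩ := hspan s
      have := congrArg ((Submodule.span A {f}).mkQ.baseChange K) hw
      rw [map_smul, LinearMap.baseChange_tmul, LinearMap.baseChange_tmul, Submodule.mkQ_apply _ f,
        (Submodule.Quotient.mk_eq_zero _).mpr (Submodule.mem_span_singleton_self f), tmul_zero,
        smul_zero] at this
      rw [← mul_one v, ← smul_eq_mul, ← smul_tmul', this, smul_zero]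
    | add x y hx hy => rw [hx, hy, add_zero]
  have hsub : ¬ Nontrivial (κ ⊗[A] Q₀) := fun hnt => by
    obtain ⟨z, hz⟩ := exists_ne (0 : κ ⊗[A] Q₀)
    have hinj : Function.Injective (TensorProduct.mk κ K (κ ⊗[A] Q₀) 1) := by
      let b := Module.Free.chooseBasis κ (κ ⊗[A] Q₀)
      intro x y hxy
      refine b.ext_elem fun j => (algebraMap κ K).injective ?_
      simpa [Algebra.smul_def] using congr((b.baseChange K).repr $hxy j)
    refine hz (hinj ((TensorProduct.AlgebraTensorModule.cancelBaseChange A κ K K Q₀).injective ?_))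
    exact (hK _).trans (hK _).symm
  have hsupp : ¬ Module.annihilator A Q₀ ≤ P.asIdeal := fun hle =>
    hsub ((Module.mem_support_iff_nontrivial_residueField_tensorProduct P).mp
      (Module.mem_support_iff_of_finite.mpr hle))
  obtain ⟨u₁, hu₁, hu₁P⟩ := SetLike.not_le_iff_exists.mp hsupp
  refine ⟨u₁, hu₁P, fun s => (Submodule.Quotient.mk_eq_zero _).mp ?_⟩
  rw [Submodule.Quotient.mk_smul]
  exact Module.mem_annihilator.mp hu₁ _

/-! ### Invertibility -/

/-- A local generator of a sublattice, with locally trivial annihilator. -/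
theorem exists_generator (P : PrimeSpectrum (D.A R i)) : ∃ g : D.A R i, g ∉ P.asIdeal ∧ ∃ f : S,
    (∀ x : S, ∃ n : ℕ, g ^ n • x ∈ Submodule.span (D.A R i) {f}) ∧
      ∀ a : D.A R i, a • f = 0 → ∃ n : ℕ, g ^ n * a = 0 := by
  classical
  have := h.finite_sublattice
  -- At a geometric point over `P` a generator of the fibre lifts to some `f`.
  let K := AlgebraicClosure P.asIdeal.ResidueField
  let σ : D.A R i →ₐ[k] K := IsScalarTower.toAlgHom k (D.A R i) K
  let φ : R →ₐ[k] K := σ.comp (IsScalarTower.toAlgHom k R (D.A R i))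
  let ev : D.A K i →ₐ[K] K := Algebra.TensorProduct.lift (AlgHom.id K K)
    (σ.comp Algebra.TensorProduct.includeRight) fun _ _ => mul_comm _ _
  have hev : ∀ a, ev (D.mapA φ i a) = σ a := fun a => by
    induction a using TensorProduct.induction_on with
    | zero => simp
    | tmul r b =>
      change φ r * σ ((1 : R) ⊗ₜ b) = σ (r ⊗ₜ b)
      rw [show φ r = σ (algebraMap R (D.A R i) r) from rfl, ← map_mul,
        Algebra.TensorProduct.algebraMap_apply,
        Algebra.TensorProduct.tmul_mul_tmul, mul_one, one_mul, Algebra.algebraMap_self_apply]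
    | add x y hx hy => simp [hx, hy]
  have g := N.toBaseChange φ
  obtain ⟨f, hfne, hspan⟩ := h.exists_generator_fibre g ev hev fun r => rfl
  obtain ⟨u₁, hu₁, hu₁S⟩ := exists_smul_mem_span_of_fibre P K f hspan
  obtain ⟨n, -, φc, y, -, φc', -, -, -, hmap, hsum, -⟩ := g.exists_dual_basis_chart i
  -- Some dual-basis coordinate of `f` is nonzero at the point, with some coefficient `r`.
  obtain ⟨j, hj⟩ : ∃ j, D.mapA φ i (φc j ⟨f.1, h.le f.2⟩) ≠ 0 := by
    by_contra! hall
    refine hfne ?_
    have := congrArg (fun x : N.L i => g.f (x : N.M)) (hsum ⟨f.1, h.le f.2⟩)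
    simp only [Submodule.coe_sum, SetLike.val_smul, map_sum, g.f_smul_chart, hall, zero_smul,
      Finset.sum_const_zero] at this
    exact this.symm
  let a₀ := φc j ⟨f.1, h.le f.2⟩
  let b := Module.Free.chooseBasis k (D.B i)
  obtain ⟨l, hl⟩ : ∃ l, φ ((b.baseChange R).repr a₀ l) ≠ 0 := by
    by_contra! hall
    refine hj ?_
    change D.mapA φ i a₀ = 0
    apply (b.baseChange K).repr.injective
    ext l
    rw [map_zero, Finsupp.zero_apply]
    exact (repr_map_baseChange b φ a₀ l).trans (hall l)
  let r := (b.baseChange R).repr a₀ l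
  have hr : algebraMap R (D.A R i) r ∉ P.asIdeal := fun hr => hl (by
    change σ (algebraMap R (D.A R i) r) = 0
    change algebraMap (D.A R i) K (algebraMap R (D.A R i) r) = 0
    rw [IsScalarTower.algebraMap_apply (D.A R i) P.asIdeal.ResidueField K,
      Ideal.algebraMap_residueField_eq_zero.mpr hr, map_zero])
  -- Inverting `u₁ r`, `f` generates with trivial annihilator.
  refine ⟨u₁ * algebraMap R (D.A R i) r, fun hm => (P.isPrime.mem_or_mem hm).elim hu₁ hr, f,
    fun x => ⟨1, ?_⟩, fun a ha => ?_⟩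
  · rw [pow_one, mul_comm, mul_smul]
    exact Submodule.smul_mem _ _ (hu₁S x)
  · have haf : a • (⟨f.1, h.le f.2⟩ : N.L i) = 0 := Subtype.ext congr(($ha : S).1)
    have ha0 : a * a₀ = 0 := by
      have := congrArg (φc j) haf
      rwa [map_smul, map_zero, smul_eq_mul] at this
    obtain ⟨n, hn⟩ := exists_pow_smul_eq_zero_of_mul_eq_zero
      (fun K _ _ => D.isDomain K i) b a₀ l a ha0
    refine ⟨n, ?_⟩
    rw [mul_pow, ← map_pow, mul_assoc, ← Algebra.smul_def, hn, mul_zero]

/-- A sublattice is an invertible module over the chart. -/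
theorem invertible_sublattice : Module.Invertible (D.A R i) S :=
  invertible_of_local_generators h.exists_generator

end IsSubLattice

end LB

end Fermat.Agent.Jac

end
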